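import Mathlib
import Fermat.Agent.DS.Chart.Defs
import Fermat.Agent.Good.GlueBaseChange

/-!
# PROGRAMME III (S48), port leaf X1-GOOD G-2 (helper7): the glue for the chart at infinity,
GENERIC in the field `F₀ ⊂ ℚ((q))` (twin of `Good/CuspGlue.lean`, helper27's chart layer
`Fermat.Agent.DS.Chart` replaces the Prelude's `chartAlg N ℓ`)

`B_fin = chartAlgFin F₀ ℓ`, `B_inf = chartAlgInf F₀ ℓ`, `B_mid = chartAlgMid F₀ ℓ` are the generic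
chart algebras over `ℤ_(ℓ)`; `w = 1/j ∈ B_inf`.  For a field `K` over `ℤ_(ℓ)`:

* `isLocalizationAway_mid_tensor_fin` / `isLocalizationAway_mid_tensor_inf` :
  `B_mid ⊗ K = (B_fin ⊗ K)[1/(j ⊗ 1)] = (B_inf ⊗ K)[1/(w ⊗ 1)]`;
* `isIntegrallyClosed_mid_tensor` : `B_fin ⊗ K` normal ⇒ `B_mid ⊗ K` normal;
* `isIntegrallyClosed_inf_tensor` : **the glue** — if `B_fin ⊗ K` is normal and, for a model `Bc`
  of `B_inf[1/(1 - 1728 w)]`, `Bc ⊗ K` is normal, then `B_inf ⊗ K` is normal.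
-/

set_option autoImplicit false
set_option linter.style.haveILetI false

open ModularCurve TensorProduct Fermat.Agent.DS.Chart

namespace Fermat.Agent.DS.Good.CuspGlue

open Fermat.Agent.Good.Glue

variable (F₀ : IntermediateField ℚ (LaurentSeries ℚ)) [hjF : Fact (jq ∈ F₀)]
variable (ℓ : ℕ) [Fact ℓ.Prime]

set_option quotPrecheck false in
local notation "ℤℓ" => ↥(GaloisRep.ratLocalizedAt ℓ)

variable (K : Type*) [Field K] [Algebra (GaloisRep.ratLocalizedAt ℓ) K]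

set_option synthInstance.maxHeartbeats 400000

/-- `B_mid` as a `B_fin`-algebra. -/
noncomputable abbrev algFinMid : Algebra (chartAlgFin F₀ ℓ) (chartAlgMid F₀ ℓ) :=
  (inclFin F₀ ℓ).toRingHom.toAlgebra

/-- `B_mid` as a `B_inf`-algebra. -/
noncomputable abbrev algInfMid : Algebra (chartAlgInf F₀ ℓ) (chartAlgMid F₀ ℓ) :=
  (inclInf F₀ ℓ).toRingHom.toAlgebra

theorem isScalarTower_fin_mid :
    letI := algFinMid F₀ ℓ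
    IsScalarTower ℤℓ (chartAlgFin F₀ ℓ) (chartAlgMid F₀ ℓ) := by
  letI := algFinMid F₀ ℓ
  exact IsScalarTower.of_algebraMap_eq fun r => ((inclFin F₀ ℓ).commutes r).symm

theorem isScalarTower_inf_mid :
    letI := algInfMid F₀ ℓ
    IsScalarTower ℤℓ (chartAlgInf F₀ ℓ) (chartAlgMid F₀ ℓ) := by
  letI := algInfMid F₀ ℓ
  exact IsScalarTower.of_algebraMap_eq fun r => ((inclInf F₀ ℓ).commutes r).symm

/-- `B_mid ⊗ K = (B_fin ⊗ K)[1/(j ⊗ 1)]`. -/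
theorem isLocalizationAway_mid_tensor_fin :
    letI := algFinMid F₀ ℓ
    haveI := isScalarTower_fin_mid F₀ ℓ
    letI := (tensorMapLoc ℤℓ (chartAlgFin F₀ ℓ) (chartAlgMid F₀ ℓ) K).toRingHom.toAlgebra
    IsLocalization.Away (jChartFin F₀ ℓ ⊗ₜ[ℤℓ] (1 : K)) (chartAlgMid F₀ ℓ ⊗[ℤℓ] K) := by
  letI := algFinMid F₀ ℓ
  haveI := isScalarTower_fin_mid F₀ ℓ
  haveI := isLocalization_away_inclFin F₀ ℓ
  exact isLocalization_away_tensor ℤℓ (chartAlgFin F₀ ℓ) (chartAlgMid F₀ ℓ) K (jChartFin F₀ ℓ)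

/-- `B_mid ⊗ K = (B_inf ⊗ K)[1/(w ⊗ 1)]`. -/
theorem isLocalizationAway_mid_tensor_inf :
    letI := algInfMid F₀ ℓ
    haveI := isScalarTower_inf_mid F₀ ℓ
    letI := (tensorMapLoc ℤℓ (chartAlgInf F₀ ℓ) (chartAlgMid F₀ ℓ) K).toRingHom.toAlgebra
    IsLocalization.Away (jInvChartInf F₀ ℓ ⊗ₜ[ℤℓ] (1 : K)) (chartAlgMid F₀ ℓ ⊗[ℤℓ] K) := by
  letI := algInfMid F₀ ℓ
  haveI := isScalarTower_inf_mid F₀ ℓ
  haveI := isLocalization_away_inclInf F₀ ℓ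
  exact isLocalization_away_tensor ℤℓ (chartAlgInf F₀ ℓ) (chartAlgMid F₀ ℓ) K (jInvChartInf F₀ ℓ)

/-- `j ⊗ 1 ≠ 0` in `B_fin ⊗ K` as soon as `B_mid ⊗ K` is nontrivial. -/
theorem jChartFin_tmul_ne_zero [Nontrivial (chartAlgMid F₀ ℓ ⊗[ℤℓ] K)] :
    jChartFin F₀ ℓ ⊗ₜ[ℤℓ] (1 : K) ≠ 0 := by
  letI := algFinMid F₀ ℓ
  haveI := isScalarTower_fin_mid F₀ ℓ
  letI := (tensorMapLoc ℤℓ (chartAlgFin F₀ ℓ) (chartAlgMid F₀ ℓ) K).toRingHom.toAlgebra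
  haveI := isLocalizationAway_mid_tensor_fin F₀ ℓ K
  intro h0
  have hu := IsLocalization.Away.algebraMap_isUnit (S := chartAlgMid F₀ ℓ ⊗[ℤℓ] K)
    (jChartFin F₀ ℓ ⊗ₜ[ℤℓ] (1 : K))
  rw [h0, map_zero] at hu
  exact not_isUnit_zero hu

/-- Normality passes from `B_fin ⊗ K` to `B_mid ⊗ K`. -/
theorem isIntegrallyClosed_mid_tensor [IsDomain (chartAlgFin F₀ ℓ ⊗[ℤℓ] K)]
    [Nontrivial (chartAlgMid F₀ ℓ ⊗[ℤℓ] K)]
    [IsIntegrallyClosed (chartAlgFin F₀ ℓ ⊗[ℤℓ] K)] :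
    IsIntegrallyClosed (chartAlgMid F₀ ℓ ⊗[ℤℓ] K) := by
  letI := algFinMid F₀ ℓ
  haveI := isScalarTower_fin_mid F₀ ℓ
  letI := (tensorMapLoc ℤℓ (chartAlgFin F₀ ℓ) (chartAlgMid F₀ ℓ) K).toRingHom.toAlgebra
  haveI := isLocalizationAway_mid_tensor_fin F₀ ℓ K
  exact isIntegrallyClosed_away (C := chartAlgFin F₀ ℓ ⊗[ℤℓ] K)
    (f := jChartFin F₀ ℓ ⊗ₜ[ℤℓ] (1 : K)) (jChartFin_tmul_ne_zero F₀ ℓ K) (chartAlgMid F₀ ℓ ⊗[ℤℓ] K)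

/-- **The glue for the chart at infinity.** -/
theorem isIntegrallyClosed_inf_tensor [IsDomain (chartAlgFin F₀ ℓ ⊗[ℤℓ] K)]
    [Nontrivial (chartAlgMid F₀ ℓ ⊗[ℤℓ] K)] [IsDomain (chartAlgInf F₀ ℓ ⊗[ℤℓ] K)]
    [IsIntegrallyClosed (chartAlgFin F₀ ℓ ⊗[ℤℓ] K)]
    (Bc : Type*) [CommRing Bc] [Algebra ℤℓ Bc] [Algebra (chartAlgInf F₀ ℓ) Bc]
    [IsScalarTower ℤℓ (chartAlgInf F₀ ℓ) Bc]
    [IsLocalization.Away (1 - 1728 * jInvChartInf F₀ ℓ) Bc]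
    [IsIntegrallyClosed (Bc ⊗[ℤℓ] K)] :
    IsIntegrallyClosed (chartAlgInf F₀ ℓ ⊗[ℤℓ] K) := by
  haveI hmid := isIntegrallyClosed_mid_tensor F₀ ℓ K
  letI := algInfMid F₀ ℓ
  haveI := isScalarTower_inf_mid F₀ ℓ
  letI a1 : Algebra (chartAlgInf F₀ ℓ ⊗[ℤℓ] K) (chartAlgMid F₀ ℓ ⊗[ℤℓ] K) :=
    (tensorMapLoc ℤℓ (chartAlgInf F₀ ℓ) (chartAlgMid F₀ ℓ) K).toRingHom.toAlgebra
  haveI := isLocalizationAway_mid_tensor_inf F₀ ℓ K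
  letI a2 : Algebra (chartAlgInf F₀ ℓ ⊗[ℤℓ] K) (Bc ⊗[ℤℓ] K) :=
    (tensorMapLoc ℤℓ (chartAlgInf F₀ ℓ) Bc K).toRingHom.toAlgebra
  haveI := isLocalization_away_tensor ℤℓ (chartAlgInf F₀ ℓ) Bc K (1 - 1728 * jInvChartInf F₀ ℓ)
  refine isIntegrallyClosed_of_away_cover' (jInvChartInf F₀ ℓ ⊗ₜ[ℤℓ] (1 : K))
    ((1 - 1728 * jInvChartInf F₀ ℓ) ⊗ₜ[ℤℓ] (1 : K))
    ⟨(1728 : chartAlgInf F₀ ℓ) ⊗ₜ[ℤℓ] (1 : K), 1, ?_⟩
    (chartAlgMid F₀ ℓ ⊗[ℤℓ] K) (Bc ⊗[ℤℓ] K)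
  rw [one_mul, Algebra.TensorProduct.tmul_mul_tmul, one_mul, ← TensorProduct.add_tmul,
    add_sub_cancel, Algebra.TensorProduct.one_def]

end Fermat.Agent.DS.Good.CuspGlue
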