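import Mathlib
import Fermat.Agent.DS.Chart.Base
import Fermat.Agent.DS.Chart.Defs
import Fermat.Agent.DS.Good.CuspGlue

/-!
# PROGRAMME III (S48), port leaf X1-GOOD G-2 (helper7): a concrete model of the cusp chart,
GENERIC in the field `F₀ ⊂ ℚ((q))` (twin of `Good/CuspChartAway.lean` over helper27's
`Fermat.Agent.DS.Chart` layer)

With `w = 1/j` and `g = 1 - 1728 w`, the chart algebra
`chartAlgInfC F₀ ℓ = chartAlg F₀ ℓ {w, g⁻¹}` (the integral closure of `ℤ_(ℓ)[w, 1/(1-1728w)]` in the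
modular function field) is the localisation of `chartAlgInf F₀ ℓ` away from `g`.  Combined with
`CuspGlue.isIntegrallyClosed_inf_tensor` this reduces the normality of the special fibre of the
chart at infinity to that of the finite chart and of the cusp chart `chartAlgInfC`.
-/

set_option autoImplicit false
set_option linter.style.haveILetI false
set_option linter.unusedSectionVars false

open ModularCurve TensorProduct Fermat.Agent.DS.Chart

namespace Fermat.Agent.DS.Good.CuspGlue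

variable (F₀ : IntermediateField ℚ (LaurentSeries ℚ)) [hjF : Fact (jq ∈ F₀)]
variable (ℓ : ℕ) [Fact ℓ.Prime]

set_option quotPrecheck false in
local notation "ℤℓ" => ↥(GaloisRep.ratLocalizedAt ℓ)

set_option quotPrecheck false in
local notation "F" => ↥F₀

set_option synthInstance.maxHeartbeats 400000

/-- `g = 1 - 1728 / j`. -/
noncomputable def gFull : F := 1 - 1728 * (jG F₀)⁻¹

theorem gFull_ne_zero : gFull F₀ ≠ 0 := by
  intro h0
  have hw : (jG F₀)⁻¹ = algebraMap ℚ F (1 / 1728) := by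
    have h1 : (1728 : F) * (jG F₀)⁻¹ = 1 := by
      have := h0
      rw [gFull, sub_eq_zero] at this
      exact this.symm
    have h2 : (1728 : F) ≠ 0 := by norm_num
    rw [map_div₀, map_one, eq_div_iff (by simp)]
    rw [mul_comm]
    simpa using h1
  have halg : IsAlgebraic ℚ ((jG F₀)⁻¹ : F) := by
    rw [hw]
    exact isAlgebraic_algebraMap _
  exact Fermat.Agent.DS.Chart.ChartBaseAux.transcendental_jG_inv_rat F₀ halg

/-- Integrality over a subalgebra passes to a bigger subalgebra. -/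
theorem isIntegral_of_subalgebra_le {R A : Type*} [CommRing R] [CommRing A] [Algebra R A]
    {S S' : Subalgebra R A} (h : S ≤ S') {x : A} (hx : IsIntegral S x) : IsIntegral S' x := by
  obtain ⟨p, hp, hpx⟩ := hx
  refine ⟨p.map (Subalgebra.inclusion h).toRingHom, hp.map _, ?_⟩
  rw [Polynomial.eval₂_map]
  exact hpx

/-- `chartAlg` only depends on the subalgebra generated by the set. -/
theorem chartAlg_le_of_adjoin_le {S S' : Set F}
    (h : Algebra.adjoin ℤℓ S ≤ Algebra.adjoin ℤℓ S') : chartAlg F₀ ℓ S ≤ chartAlg F₀ ℓ S' := by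
  intro x hx
  rw [mem_chartAlg_iff] at hx ⊢
  exact isIntegral_of_subalgebra_le h hx

/-- The chart algebra of the cusp chart `D(1 - 1728 w) ⊆ Spec ℤ_(ℓ)[w]`. -/
noncomputable abbrev chartAlgInfC : Subalgebra ℤℓ F :=
  chartAlg F₀ ℓ {(jG F₀)⁻¹, (gFull F₀)⁻¹}

theorem sInfC_subset : ({(jG F₀)⁻¹} : Set F) ⊆ {(jG F₀)⁻¹, (gFull F₀)⁻¹} :=
  Set.singleton_subset_iff.mpr (Set.mem_insert _ _)

/-- The inclusion `chartAlgInf → chartAlgInfC`. -/
noncomputable abbrev inclInfC : chartAlgInf F₀ ℓ →ₐ[ℤℓ] chartAlgInfC F₀ ℓ :=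
  chartIncl F₀ ℓ (sInfC_subset F₀)

theorem gFull_mem_adjoin : gFull F₀ ∈ Algebra.adjoin ℤℓ ({(jG F₀)⁻¹} : Set F) := by
  rw [gFull]
  refine sub_mem (one_mem _) (mul_mem ?_ (Algebra.subset_adjoin rfl))
  have : (1728 : F) = algebraMap ℤℓ F 1728 := (map_ofNat (algebraMap ℤℓ F) 1728).symm
  rw [this]
  exact Subalgebra.algebraMap_mem _ _

theorem coe_one_sub_jInvChartInf :
    ((1 - 1728 * jInvChartInf F₀ ℓ : chartAlgInf F₀ ℓ) : F) = gFull F₀ := by
  rw [gFull, Subalgebra.coe_sub, Subalgebra.coe_one, Subalgebra.coe_mul]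
  have h1 : ((1728 : chartAlgInf F₀ ℓ) : F) = 1728 := map_ofNat (chartAlgInf F₀ ℓ).val 1728
  rw [h1]
  rfl

theorem isUnit_inclInfC_g : IsUnit (inclInfC F₀ ℓ (1 - 1728 * jInvChartInf F₀ ℓ)) := by
  refine .of_mul_eq_one ⟨(gFull F₀)⁻¹, subset_chartAlg F₀ ℓ _ (by simp)⟩ (Subtype.ext ?_)
  rw [Subalgebra.coe_mul, Subalgebra.coe_one, coe_chartIncl, coe_one_sub_jInvChartInf]
  exact mul_inv_cancel₀ (gFull_ne_zero F₀)

/-- **`chartAlgInfC = chartAlgInf[1/(1 - 1728 w)]`.** -/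
theorem isLocalization_away_inclInfC :
    letI := (inclInfC F₀ ℓ).toRingHom.toAlgebra
    IsLocalization.Away (1 - 1728 * jInvChartInf F₀ ℓ) (chartAlgInfC F₀ ℓ) := by
  letI := (inclInfC F₀ ℓ).toRingHom.toAlgebra
  refine (isLocalization_iff _ _).mpr ⟨?_, ?_, ?_⟩
  · rintro ⟨_, n, rfl⟩
    rw [RingHom.algebraMap_toAlgebra, map_pow]
    exact (isUnit_inclInfC_g F₀ ℓ).pow n
  · intro z
    have hz : (z : F) ∈ chartAlg F₀ ℓ (insert (gFull F₀)⁻¹ {gFull F₀, (jG F₀)⁻¹}) := by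
      refine chartAlg_mono F₀ ℓ ?_ z.2
      intro y hy
      rcases hy with rfl | rfl
      · exact Set.mem_insert_of_mem _ (Set.mem_insert_of_mem _ rfl)
      · exact Set.mem_insert _ _
    obtain ⟨n, hn⟩ := exists_pow_mul_mem_chartAlg (Set.mem_insert _ _) (gFull_ne_zero F₀) hz
    have hle : chartAlg F₀ ℓ {gFull F₀, (jG F₀)⁻¹} ≤ chartAlgInf F₀ ℓ := by
      apply chartAlg_le_of_adjoin_le
      rw [Algebra.adjoin_le_iff]
      rintro y (rfl | rfl)
      · exact gFull_mem_adjoin F₀ ℓ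
      · exact Algebra.subset_adjoin rfl
    refine ⟨(⟨(gFull F₀) ^ n * z, hle hn⟩, ⟨(1 - 1728 * jInvChartInf F₀ ℓ) ^ n, n, rfl⟩),
      Subtype.ext ?_⟩
    simp only [RingHom.algebraMap_toAlgebra, map_pow, Subalgebra.coe_mul, Subalgebra.coe_pow,
      AlgHom.toRingHom_eq_coe, AlgHom.coe_toRingHom, coe_chartIncl, coe_one_sub_jInvChartInf]
    exact mul_comm _ _
  · intro x y h
    refine ⟨1, ?_⟩
    rw [RingHom.algebraMap_toAlgebra] at h
    rw [chartIncl_injective F₀ ℓ _ h]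

theorem isScalarTower_inf_infC :
    letI := (inclInfC F₀ ℓ).toRingHom.toAlgebra
    IsScalarTower ℤℓ (chartAlgInf F₀ ℓ) (chartAlgInfC F₀ ℓ) := by
  letI := (inclInfC F₀ ℓ).toRingHom.toAlgebra
  exact IsScalarTower.of_algebraMap_eq fun r => ((inclInfC F₀ ℓ).commutes r).symm

/-- **The glue, concrete form.** If the special fibres `chartAlgFin ⊗ K` and `chartAlgInfC ⊗ K`
are normal, so is `chartAlgInf ⊗ K`. -/
theorem isIntegrallyClosed_inf_tensor_of_infC (K : Type*) [Field K]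
    [Algebra (GaloisRep.ratLocalizedAt ℓ) K]
    [IsDomain (chartAlgFin F₀ ℓ ⊗[ℤℓ] K)] [Nontrivial (chartAlgMid F₀ ℓ ⊗[ℤℓ] K)]
    [IsDomain (chartAlgInf F₀ ℓ ⊗[ℤℓ] K)] [IsIntegrallyClosed (chartAlgFin F₀ ℓ ⊗[ℤℓ] K)]
    [IsIntegrallyClosed (chartAlgInfC F₀ ℓ ⊗[ℤℓ] K)] :
    IsIntegrallyClosed (chartAlgInf F₀ ℓ ⊗[ℤℓ] K) := by
  letI := (inclInfC F₀ ℓ).toRingHom.toAlgebra
  haveI := isScalarTower_inf_infC F₀ ℓ
  haveI := isLocalization_away_inclInfC F₀ ℓ
  exact isIntegrallyClosed_inf_tensor F₀ ℓ K (chartAlgInfC F₀ ℓ)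

end Fermat.Agent.DS.Good.CuspGlue
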