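import Mathlib
import Fermat.Agent.DS.Good.CuspChartAway
import Fermat.Agent.DS.Chart.Extract

/-!
# PROGRAMME III (S48), port leaf X1-GOOD G-2 (helper7): the concrete cusp chart, side conditions,
GENERIC in the field `F₀ ⊂ ℚ((q))` (twin of `Good/CuspChartModel.lean` over helper27's
`Fermat.Agent.DS.Chart` layer)

`chartAlgInfC F₀ ℓ = chartAlg F₀ ℓ {w, g⁻¹}` (`w = 1/j`, `g = 1 - 1728 w`).  This file provides

* `hSInfC` : the generators have `ℓ`-integral `q`-expansions, so `chartRes` is defined;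
* `redDataInfC_of` / `redDataInfC` : the `q`-expansion principle (`ReductionData`) on the cusp
  chart, by localisation from the chart at infinity (hypothesis form / from
  `I : ChartInputs F₀ ℓ d` through helper27's `S28X.redDataInf`);
  `isDomain_tensor_infC` : its special fibre is geometrically integral;
* `isIntegrallyClosed_inf_tensor_of_fin_infC` : the glue of `DS/Good/CuspChartAway.lean` with all
  side conditions discharged from `I : ChartInputs F₀ ℓ d`.
-/

set_option autoImplicit false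
set_option linter.style.haveILetI false
set_option linter.unusedSectionVars false

open ModularCurve TensorProduct Fermat.Agent.DS.Chart
open Fermat.Agent.Igusa

namespace Fermat.Agent.DS.Good.CuspGlue

variable (F₀ : IntermediateField ℚ (LaurentSeries ℚ)) [hjF : Fact (jq ∈ F₀)]
variable (ℓ : ℕ) [Fact ℓ.Prime]

set_option quotPrecheck false in
local notation "ℤℓ" => ↥(GaloisRep.ratLocalizedAt ℓ)

set_option quotPrecheck false in
local notation "F" => ↥F₀

set_option synthInstance.maxHeartbeats 400000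

variable (hfr : IsZlField F₀ ℓ)

/-- The reduction of `g = 1 - 1728 w` on the chart at infinity. -/
theorem chartRes_gInf :
    chartRes F₀ ℓ hfr (hSInf F₀ ℓ) (1 - 1728 * jInvChartInf F₀ ℓ) =
      1 - 1728 * (jqModC (ZMod ℓ))⁻¹ := by
  rw [map_sub, map_one, map_mul, map_ofNat,
    chartRes_jG_inv F₀ ℓ hfr (hSInf F₀ ℓ) (jInvChartInf F₀ ℓ) rfl]

theorem chartRes_gInf_ne_zero :
    chartRes F₀ ℓ hfr (hSInf F₀ ℓ) (1 - 1728 * jInvChartInf F₀ ℓ) ≠ 0 := by
  rw [chartRes_gInf]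
  intro h0
  apply ChartBaseAux.transcendental_jqModC_inv (ZMod ℓ)
  refine ⟨1 - Polynomial.C 1728 * Polynomial.X, ?_, ?_⟩
  · intro h
    have := congrArg (fun p => Polynomial.coeff p 0) h
    simp at this
  · have h1728 : (algebraMap (ZMod ℓ) (LaurentSeries (ZMod ℓ))) 1728 = 1728 := map_ofNat _ 1728
    simpa [h1728] using h0

theorem coe_gFull_mem_gaussSubring : ((gFull F₀ : F) : LaurentSeries ℚ) ∈ gaussSubring ℓ :=
  coe_mem_gaussSubring_of_mem_adjoin F₀ ℓ (hSInf F₀ ℓ) (gFull_mem_adjoin F₀ ℓ)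

include hfr in
theorem gaussRes_gFull_ne_zero :
    gaussRes ℓ ⟨((gFull F₀ : F) : LaurentSeries ℚ), coe_gFull_mem_gaussSubring F₀ ℓ⟩ ≠ 0 := by
  have h := chartRes_gInf_ne_zero F₀ ℓ hfr
  rw [chartRes_apply] at h
  intro h0
  apply h
  rw [← h0]
  congr 1

include hfr in
/-- The generators of the cusp chart have `ℓ`-integral `q`-expansions. -/
theorem hSInfC : ∀ s ∈ ({(jG F₀)⁻¹, (gFull F₀)⁻¹} : Set F),
    ((s : F) : LaurentSeries ℚ) ∈ gaussSubring ℓ := by
  rintro s (rfl | rfl)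
  · exact hSInf F₀ ℓ _ rfl
  · rw [IntermediateField.coe_inv]
    exact inv_mem_gaussSubring_of_gaussRes_ne_zero ℓ
      ⟨((gFull F₀ : F) : LaurentSeries ℚ), coe_gFull_mem_gaussSubring F₀ ℓ⟩
      (gaussRes_gFull_ne_zero F₀ ℓ hfr)

/-- **The `q`-expansion principle on the cusp chart**, by localisation from the chart at
infinity (hypothesis form: the `q`-expansion principle on the chart at infinity). -/
noncomputable def redDataInfC_of
    (hInf : ∀ x : ↥(chartAlgInf F₀ ℓ), chartRes F₀ ℓ hfr (hSInf F₀ ℓ) x = 0 →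
      ∃ y : ↥(chartAlgInf F₀ ℓ), x = algebraMap ℤℓ ↥(chartAlgInf F₀ ℓ) (zlPrime ℓ) * y) :
    ReductionData ℓ ↥(chartAlgInfC F₀ ℓ) where
  ρ := chartRes F₀ ℓ hfr (hSInfC F₀ ℓ hfr)
  map_algebraMap := chartRes_algebraMap F₀ ℓ hfr (hSInfC F₀ ℓ hfr)
  ker_le := by
    intro x hx
    letI := (inclInfC F₀ ℓ).toRingHom.toAlgebra
    haveI := isLocalization_away_inclInfC F₀ ℓ
    obtain ⟨⟨y, ⟨_, n, rfl⟩⟩, hy⟩ :=
      IsLocalization.surj (Submonoid.powers (1 - 1728 * jInvChartInf F₀ ℓ)) x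
    have hy' : x * inclInfC F₀ ℓ ((1 - 1728 * jInvChartInf F₀ ℓ) ^ n) = inclInfC F₀ ℓ y := hy
    have h1 : chartRes F₀ ℓ hfr (hSInf F₀ ℓ) y =
        chartRes F₀ ℓ hfr (hSInfC F₀ ℓ hfr) (inclInfC F₀ ℓ y) :=
      chartRes_congr F₀ ℓ hfr _ _ _ _ (coe_chartIncl F₀ ℓ _ y).symm
    rw [← hy', map_mul, hx, zero_mul] at h1
    obtain ⟨z, hz⟩ := hInf y h1
    obtain ⟨u, hu⟩ := (isUnit_inclInfC_g F₀ ℓ).pow n
    refine ⟨↑u⁻¹ * inclInfC F₀ ℓ z, ?_⟩
    have h2 : x * ↑u = algebraMap ℤℓ ↥(chartAlgInfC F₀ ℓ) (zlPrime ℓ) * inclInfC F₀ ℓ z := by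
      rw [hu, ← map_pow, hy', hz, map_mul, AlgHom.commutes]
    calc x = x * ↑u * ↑u⁻¹ := by rw [mul_assoc, Units.mul_inv, mul_one]
      _ = _ := by rw [h2]; ring

/-! ### The reduction data from `ChartInputs` -/

variable {d : ℕ} (I : ChartInputs F₀ ℓ d)

open Fermat.Agent.DS.Chart.S28X

/-- **The `q`-expansion principle on the cusp chart**, from `I : ChartInputs F₀ ℓ d`. -/
noncomputable def redDataInfC : ReductionData ℓ ↥(chartAlgInfC F₀ ℓ) :=
  redDataInfC_of F₀ ℓ I.zl (redDataInf F₀ ℓ I).ker_le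

theorem redDataInfC_ρ :
    (redDataInfC F₀ ℓ I).ρ = chartRes F₀ ℓ I.zl (hSInfC F₀ ℓ I.zl) := rfl

include I in
/-- Geometric integrality of the special fibre of the cusp chart. -/
theorem isDomain_tensor_infC (K : Type*) [Field K] [CharP K ℓ]
    [Algebra (GaloisRep.ratLocalizedAt ℓ) K] :
    IsDomain (↥(chartAlgInfC F₀ ℓ) ⊗[ℤℓ] K) :=
  (redDataInfC F₀ ℓ I).isDomain_tensor ℓ K

set_option maxHeartbeats 2000000 in
include I in
/-- **The glue, final form.** For a field `K` of characteristic `ℓ`: if the special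
fibres of the finite chart and of the cusp chart are normal, so is the special fibre of the chart
at infinity. -/
theorem isIntegrallyClosed_inf_tensor_of_fin_infC (K : Type*) [Field K]
    [CharP K ℓ] [Algebra (GaloisRep.ratLocalizedAt ℓ) K]
    [IsIntegrallyClosed (chartAlgFin F₀ ℓ ⊗[ℤℓ] K)]
    [IsIntegrallyClosed (chartAlgInfC F₀ ℓ ⊗[ℤℓ] K)] :
    IsIntegrallyClosed (chartAlgInf F₀ ℓ ⊗[ℤℓ] K) := by
  haveI := isDomain_tensor_fin F₀ ℓ I K
  haveI := isDomain_tensor_inf F₀ ℓ I K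
  haveI : IsDomain (chartAlgMid F₀ ℓ ⊗[ℤℓ] K) := (redDataMid F₀ ℓ I).isDomain_tensor ℓ K
  exact isIntegrallyClosed_inf_tensor_of_infC F₀ ℓ K

end Fermat.Agent.DS.Good.CuspGlue
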