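import Mathlib
import Fermat.Agent.DS.Good.CuspChartModel
import Fermat.Agent.Good.KummerCover

/-!
# PROGRAMME III (S48), port leaf X1-GOOD G-2 (helper7): the base ring of the cusp chart,
GENERIC in the field `F₀ ⊂ ℚ((q))` (twin of `Good/CuspBaseRing.lean` over helper27's
`Fermat.Agent.DS.Chart` layer; finiteness of `F₀/ℚ(j)` enters as `hdeg : DegInputs F₀ d`)

`w = 1/j`, `g = 1 - 1728 w`.  The base ring of the cusp chart `chartAlgInfC F₀ ℓ` is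
`adjInfC F₀ ℓ = ℤ_(ℓ)[w, 1/g] ⊆ F`.  This file shows

* `isLocalization_away_adjInclInfC` : `ℤ_(ℓ)[w, 1/g] = ℤ_(ℓ)[w][1/g]`;
* `adjInfC` is noetherian, integrally closed, with fraction field `ℚ(j)`;
* `chartAlgInfC` is a finite `adjInfC`-module, integrally closed, with fraction field `F`;
* `lamEquivAdjInfC : Kum.LamC ℤ_(ℓ) ≃ₐ[ℤ_(ℓ)] adjInfC F₀ ℓ`, `wLam ↦ w` (the abstract model of
  `Good/KummerCover.lean`).
-/

set_option autoImplicit false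
set_option linter.style.haveILetI false
set_option linter.unusedSectionVars false

open ModularCurve TensorProduct Fermat.Agent.DS.Chart IntermediateField
open Fermat.Agent.Igusa

namespace Fermat.Agent.DS.Good.CuspGlue

variable (F₀ : IntermediateField ℚ (LaurentSeries ℚ)) [hjF : Fact (jq ∈ F₀)]
variable (ℓ : ℕ) [Fact ℓ.Prime]

set_option quotPrecheck false in
local notation "ℤℓ" => ↥(GaloisRep.ratLocalizedAt ℓ)

set_option quotPrecheck false in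
local notation "F" => ↥F₀

set_option synthInstance.maxHeartbeats 400000

/-- The base ring `ℤ_(ℓ)[w, 1/(1 - 1728 w)]` of the cusp chart. -/
noncomputable abbrev adjInfC : Subalgebra ℤℓ F :=
  Algebra.adjoin ℤℓ ({(jG F₀)⁻¹, (gFull F₀)⁻¹} : Set F)

/-- `g` as an element of `ℤ_(ℓ)[w]`. -/
noncomputable def gAdjInf : ↥(Algebra.adjoin ℤℓ ({(jG F₀)⁻¹} : Set F)) :=
  ⟨gFull F₀, gFull_mem_adjoin F₀ ℓ⟩

/-- the inclusion `ℤ_(ℓ)[w] → ℤ_(ℓ)[w, 1/g]` -/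
noncomputable abbrev adjInclInfC : ↥(Algebra.adjoin ℤℓ ({(jG F₀)⁻¹} : Set F)) →ₐ[ℤℓ]
    ↥(adjInfC F₀ ℓ) :=
  Subalgebra.inclusion (Algebra.adjoin_mono (sInfC_subset F₀))

theorem gFull_mem_Qj : gFull F₀ ∈ ℚ⟮jG F₀⟯ := by
  rw [gFull]
  exact sub_mem (one_mem _) (mul_mem (by
    have : (1728 : F) = algebraMap ℚ F 1728 := (map_ofNat (algebraMap ℚ F) 1728).symm
    rw [this]
    exact ℚ⟮jG F₀⟯.algebraMap_mem _) (ℚ⟮jG F₀⟯.inv_mem (jG_mem_Qj F₀)))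

theorem sInfC_subset_Qj :
    ({(jG F₀)⁻¹, (gFull F₀)⁻¹} : Set F) ⊆ (ℚ⟮jG F₀⟯ : Set F) := by
  rintro x (rfl | rfl)
  · exact ℚ⟮jG F₀⟯.inv_mem (jG_mem_Qj F₀)
  · exact ℚ⟮jG F₀⟯.inv_mem (gFull_mem_Qj F₀)

/-- **`ℤ_(ℓ)[w, 1/g]` is the localisation of `ℤ_(ℓ)[w]` away from `g`.** -/
theorem isLocalization_away_adjInclInfC :
    letI := (adjInclInfC F₀ ℓ).toRingHom.toAlgebra
    IsLocalization.Away (gAdjInf F₀ ℓ) ↥(adjInfC F₀ ℓ) := by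
  letI := (adjInclInfC F₀ ℓ).toRingHom.toAlgebra
  refine (isLocalization_iff _ _).mpr ⟨?_, ?_, ?_⟩
  · rintro ⟨_, n, rfl⟩
    rw [RingHom.algebraMap_toAlgebra, map_pow]
    refine IsUnit.pow n ?_
    refine .of_mul_eq_one ⟨(gFull F₀)⁻¹, Algebra.subset_adjoin (by simp)⟩ (Subtype.ext ?_)
    exact mul_inv_cancel₀ (gFull_ne_zero F₀)
  · intro z
    have hz : (z : F) ∈ Algebra.adjoin ℤℓ (insert (gFull F₀)⁻¹ ({gFull F₀, (jG F₀)⁻¹} : Set F)) := by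
      refine Algebra.adjoin_mono ?_ z.2
      rintro y (rfl | rfl)
      · exact Set.mem_insert_of_mem _ (Set.mem_insert_of_mem _ rfl)
      · exact Set.mem_insert _ _
    obtain ⟨n, hn⟩ := exists_pow_mul_mem_adjoin (Set.mem_insert _ _) (gFull_ne_zero F₀) hz
    have hle : Algebra.adjoin ℤℓ ({gFull F₀, (jG F₀)⁻¹} : Set F) ≤
        Algebra.adjoin ℤℓ ({(jG F₀)⁻¹} : Set F) := by
      rw [Algebra.adjoin_le_iff]
      rintro y (rfl | rfl)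
      · exact gFull_mem_adjoin F₀ ℓ
      · exact Algebra.subset_adjoin rfl
    refine ⟨(⟨(gFull F₀) ^ n * z, hle hn⟩, ⟨gAdjInf F₀ ℓ ^ n, n, rfl⟩), Subtype.ext ?_⟩
    rw [RingHom.algebraMap_toAlgebra]
    show (z : F) * (gFull F₀) ^ n = (gFull F₀) ^ n * (z : F)
    exact mul_comm _ _
  · intro x y h
    refine ⟨1, ?_⟩
    rw [RingHom.algebraMap_toAlgebra] at h
    rw [Subalgebra.inclusion_injective _ h]

theorem gAdjInf_ne_zero : gAdjInf F₀ ℓ ≠ 0 := fun h =>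
  gFull_ne_zero F₀ (congrArg Subtype.val h)

theorem isIntegrallyClosed_adjInfC : IsIntegrallyClosed ↥(adjInfC F₀ ℓ) := by
  let _ := (adjInclInfC F₀ ℓ).toRingHom.toAlgebra
  have := isLocalization_away_adjInclInfC F₀ ℓ
  have : IsIntegrallyClosed ↥(Algebra.adjoin ℤℓ ({(jG F₀)⁻¹} : Set F)) :=
    ChartBaseAux.isIntegrallyClosed_adjInf F₀ ℓ
  refine isIntegrallyClosed_of_isLocalization _ (Submonoid.powers (gAdjInf F₀ ℓ)) ?_
  rintro x ⟨n, rfl⟩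
  exact mem_nonZeroDivisors_of_ne_zero (pow_ne_zero n (gAdjInf_ne_zero F₀ ℓ))

theorem isNoetherianRing_adjInfC : IsNoetherianRing ↥(adjInfC F₀ ℓ) := by
  let _ := (adjInclInfC F₀ ℓ).toRingHom.toAlgebra
  have := isLocalization_away_adjInclInfC F₀ ℓ
  exact IsLocalization.isNoetherianRing (Submonoid.powers (gAdjInf F₀ ℓ)) _
    (ChartBaseAux.isNoetherianRing_adjInf F₀ ℓ)

/-- `Frac ℤ_(ℓ)[w, 1/g] = ℚ(j)`. -/
theorem isFractionRing_adjInfC :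
    letI := adjoinAlgebraQj F₀ ℓ (sInfC_subset_Qj F₀)
    IsFractionRing ↥(adjInfC F₀ ℓ) ↥ℚ⟮jG F₀⟯ :=
  adjoinQj_isFractionRing F₀ ℓ (sInfC_subset_Qj F₀) (Or.inr (Algebra.subset_adjoin (by simp)))

attribute [local instance] chartBaseAlgebra
attribute [local instance 2000] chartBaseSMul

/-- The cusp chart algebra is a finite module over `ℤ_(ℓ)[w, 1/g]`. -/
theorem finite_chartAlgInfC {d : ℕ} (hdeg : DegInputs F₀ d) : Module.Finite ↥(adjInfC F₀ ℓ) ↥(chartAlgInfC F₀ ℓ) := by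
  let _ := adjoinAlgebraQj F₀ ℓ (sInfC_subset_Qj F₀)
  have := adjoinQj_isScalarTower F₀ ℓ (sInfC_subset_Qj F₀)
  have := isFractionRing_adjInfC F₀ ℓ
  have := hdeg.finite
  have : IsIntegrallyClosed ↥(adjInfC F₀ ℓ) := isIntegrallyClosed_adjInfC F₀ ℓ
  have : IsNoetherianRing ↥(adjInfC F₀ ℓ) := isNoetherianRing_adjInfC F₀ ℓ
  exact IsIntegralClosure.finite ↥(adjInfC F₀ ℓ) ↥ℚ⟮jG F₀⟯ F ↥(chartAlgInfC F₀ ℓ)

/-- `F_N` is the fraction field of the cusp chart algebra. -/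
theorem isFractionRing_chartAlgInfC {d : ℕ} (hdeg : DegInputs F₀ d) : IsFractionRing ↥(chartAlgInfC F₀ ℓ) F := by
  let _ := adjoinAlgebraQj F₀ ℓ (sInfC_subset_Qj F₀)
  have := adjoinQj_isScalarTower F₀ ℓ (sInfC_subset_Qj F₀)
  have := isFractionRing_adjInfC F₀ ℓ
  have := hdeg.finite
  exact IsIntegralClosure.isFractionRing_of_finite_extension
    ↥(adjInfC F₀ ℓ) ↥ℚ⟮jG F₀⟯ F ↥(chartAlgInfC F₀ ℓ)

/-- The cusp chart algebra is integrally closed. -/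
theorem isIntegrallyClosed_chartAlgInfC {d : ℕ} (hdeg : DegInputs F₀ d) : IsIntegrallyClosed ↥(chartAlgInfC F₀ ℓ) := by
  have := isFractionRing_chartAlgInfC F₀ ℓ hdeg
  rw [isIntegrallyClosed_iff F]
  intro x hx
  have : Algebra.IsIntegral ↥(adjInfC F₀ ℓ) ↥(chartAlgInfC F₀ ℓ) :=
    IsIntegralClosure.isIntegral_algebra ↥(adjInfC F₀ ℓ) F
  have h1 : IsIntegral ↥(adjInfC F₀ ℓ) x :=
    isIntegral_trans (A := ↥(chartAlgInfC F₀ ℓ)) x hx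
  exact ⟨⟨x, (mem_chartAlg_iff F₀ ℓ).mpr h1⟩, rfl⟩

/-! ### The abstract model `Kum.LamC ℤ_(ℓ)` -/

open Polynomial Fermat.Agent.Good.Kum

/-- `ℤ_(ℓ)[X] ≃ ℤ_(ℓ)[w]`. -/
noncomputable def polyEquivAdjInf :
    ℤℓ[X] ≃ₐ[ℤℓ] ↥(Algebra.adjoin ℤℓ ({(jG F₀)⁻¹} : Set F)) :=
  Polynomial.algEquivOfTranscendental ℤℓ _ (ChartBaseAux.transcendental_jG_inv_zl F₀ ℓ)

theorem coe_polyEquivAdjInf (p : ℤℓ[X]) :
    ((polyEquivAdjInf F₀ ℓ p : ↥(Algebra.adjoin ℤℓ ({(jG F₀)⁻¹} : Set F))) : F) =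
      aeval (jG F₀)⁻¹ p := by
  rw [polyEquivAdjInf, Polynomial.algEquivOfTranscendental_apply]
  exact (Polynomial.aeval_algHom_apply (Algebra.adjoin ℤℓ ({(jG F₀)⁻¹} : Set F)).val
    (⟨(jG F₀)⁻¹, _⟩ : ↥(Algebra.adjoin ℤℓ ({(jG F₀)⁻¹} : Set F))) p).symm

theorem polyEquivAdjInf_cLam : polyEquivAdjInf F₀ ℓ (cLam ℤℓ) = gAdjInf F₀ ℓ := by
  apply Subtype.ext
  rw [coe_polyEquivAdjInf, cLam, map_sub, map_one, map_mul, aeval_X, aeval_C]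
  have : algebraMap ℤℓ F 1728 = 1728 := map_ofNat (algebraMap ℤℓ F) 1728
  rw [this]
  rfl

/-- **`Kum.LamC ℤ_(ℓ) ≃ ℤ_(ℓ)[w, 1/(1 - 1728 w)]`.** -/
noncomputable def lamEquivAdjInfC : LamC ℤℓ ≃ₐ[ℤℓ] ↥(adjInfC F₀ ℓ) :=
  letI := (adjInclInfC F₀ ℓ).toRingHom.toAlgebra
  haveI := isLocalization_away_adjInclInfC F₀ ℓ
  haveI : IsScalarTower ℤℓ ↥(Algebra.adjoin ℤℓ ({(jG F₀)⁻¹} : Set F)) ↥(adjInfC F₀ ℓ) :=
    IsScalarTower.of_algebraMap_eq fun r => ((adjInclInfC F₀ ℓ).commutes r).symm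
  IsLocalization.algEquivOfAlgEquiv (M := Submonoid.powers (cLam ℤℓ)) (LamC ℤℓ)
    (T := Submonoid.powers (gAdjInf F₀ ℓ)) ↥(adjInfC F₀ ℓ) (polyEquivAdjInf F₀ ℓ) (by
      rw [Submonoid.map_powers]
      congr 1
      exact polyEquivAdjInf_cLam F₀ ℓ)

theorem coe_lamEquivAdjInfC_algebraMap (p : ℤℓ[X]) :
    ((lamEquivAdjInfC F₀ ℓ (algebraMap ℤℓ[X] (LamC ℤℓ) p) : ↥(adjInfC F₀ ℓ)) : F) =
      aeval (jG F₀)⁻¹ p := by
  letI := (adjInclInfC F₀ ℓ).toRingHom.toAlgebra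
  haveI := isLocalization_away_adjInclInfC F₀ ℓ
  haveI : IsScalarTower ℤℓ ↥(Algebra.adjoin ℤℓ ({(jG F₀)⁻¹} : Set F)) ↥(adjInfC F₀ ℓ) :=
    IsScalarTower.of_algebraMap_eq fun r => ((adjInclInfC F₀ ℓ).commutes r).symm
  rw [lamEquivAdjInfC, IsLocalization.algEquivOfAlgEquiv_eq, ← coe_polyEquivAdjInf,
    RingHom.algebraMap_toAlgebra]
  exact Subalgebra.coe_inclusion _ _

theorem coe_lamEquivAdjInfC_wLam :
    ((lamEquivAdjInfC F₀ ℓ (wLam ℤℓ) : ↥(adjInfC F₀ ℓ)) : F) = (jG F₀)⁻¹ := by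
  rw [wLam, coe_lamEquivAdjInfC_algebraMap, aeval_X]

theorem coe_lamEquivAdjInfC_lamConst (a : ℤℓ) :
    ((lamEquivAdjInfC F₀ ℓ (lamConst ℤℓ a) : ↥(adjInfC F₀ ℓ)) : F) = algebraMap ℤℓ F a := by
  rw [pawConst_apply, coe_lamEquivAdjInfC_algebraMap, aeval_C]

end Fermat.Agent.DS.Good.CuspGlue
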