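import Fermat.Agent.Good.KummerAlg
import Fermat.Agent.Good.TraceIntegral
import Fermat.Agent.DS.Chart.Defs

/-!
# PROGRAMME III (S48), port leaf X1-GOOD G-2 (helper8): the cusp chart, Kummer cover and its
retraction, GENERIC in the field `F₀ ⊂ ℚ((q))` and in the Kummer index `e`
(twin of `Good/CuspChart.lean` over helper27's `Fermat.Agent.DS.Chart` layer)

`F = F₀` any field of modular functions containing `j`, `w = 1/j ∈ F`, `ℤℓ = ℤ_(ℓ)`, `ℓ ∤ e`.

* `Ec F₀ e = Kum.KumAlg F w e = F[y]/(y^e - w)` : the Kummer algebra, free of rank `e` over `F`;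
* `BE F₀ e ℓ S` : the integral closure of `ℤℓ[S]` in `Ec F₀ e`, for a set `S ⊆ F`
  (`Chart.chartAlg F₀ ℓ S` is the integral closure of `ℤℓ[S]` in `F`);
* `incl : chartAlg F₀ ℓ S →ₐ[ℤℓ] BE F₀ e ℓ S` and the retraction
  `rho : BE F₀ e ℓ S →ₗ[chartAlg F₀ ℓ S] chartAlg F₀ ℓ S` (`= kumProj = (1/e)·Tr`), `rho_incl`;
* `kumY_mem_BE` : `y ∈ BE F₀ e ℓ S` as soon as `w ∈ ℤℓ[S]`;
* `invN hℓe : ℤ_(ℓ)` : the inverse of the Kummer index (`ℓ ∤ e`), `algebraMap_invN_mul`.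

For `X₀(N)`: `F₀ = modularFunctionFieldFull N`, `e = N`; for `X₁(M)`: `F₀ = K1 M`, `e = M`.
-/

set_option autoImplicit false
set_option linter.unusedSectionVars false
set_option linter.style.haveILetI false
set_option synthInstance.maxHeartbeats 400000

noncomputable section

namespace Fermat.Agent.DS.Good.CuspChart

open ModularCurve Fermat.Agent.DS.Chart Fermat.Agent.Good.Kum

variable (F₀ : IntermediateField ℚ (LaurentSeries ℚ)) [hjF : Fact (jq ∈ F₀)]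
variable (e : ℕ) [NeZero e] (ℓ : ℕ) [Fact ℓ.Prime]

set_option quotPrecheck false in
local notation "ℤℓ" => ↥(GaloisRep.ratLocalizedAt ℓ)

set_option quotPrecheck false in
local notation "F" => ↥F₀

/-- `w = 1/j` in the function field `F`. -/
def wF : F := (jG F₀)⁻¹

/-- The Kummer algebra `F[y]/(y^e - w)`. -/
abbrev Ec : Type := KumAlg F (wF F₀) e

theorem N_pos : 0 < e := Nat.pos_of_ne_zero (NeZero.ne e)

/-! ### `e` is invertible in `ℤ_(ℓ)` -/

variable {e ℓ} in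
/-- `1/e` as an element of `ℤ_(ℓ)`, for `ℓ ∤ e`. -/
def invN (hℓe : ¬ ℓ ∣ e) : ℤℓ :=
  ⟨(e : ℚ)⁻¹, by
    show ((e : ℚ)⁻¹).den.Coprime ℓ
    rw [Rat.inv_natCast_den, if_neg (NeZero.ne e)]
    exact (Nat.Coprime.symm ((Nat.Prime.coprime_iff_not_dvd (Fact.out)).mpr hℓe))⟩

omit hjF in
variable {e ℓ} in
theorem algebraMap_invN_mul (hℓe : ¬ ℓ ∣ e) :
    algebraMap ℤℓ F (invN hℓe) * (e : F) = 1 := by
  have h1 : algebraMap ℤℓ F (invN hℓe) = algebraMap ℚ F ((e : ℚ)⁻¹) := rfl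
  rw [h1, ← map_natCast (algebraMap ℚ F) e, ← map_mul,
    inv_mul_cancel₀ (Nat.cast_ne_zero.mpr (NeZero.ne e)), map_one]

/-! ### The integral closure of `ℤℓ[S]` in the Kummer algebra -/

variable (S : Set ↥F₀)

/-- The integral closure of `ℤℓ[S]` in the Kummer algebra `Ec F₀ e`. -/
def BE : Subalgebra ℤℓ (Ec F₀ e) where
  carrier := {z | IsIntegral (Algebra.adjoin ℤℓ S) z}
  mul_mem' ha hb := ha.mul hb
  one_mem' := isIntegral_one
  add_mem' ha hb := ha.add hb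
  zero_mem' := isIntegral_zero
  algebraMap_mem' a := by
    have : IsIntegral (Algebra.adjoin ℤℓ S)
        (algebraMap (Algebra.adjoin ℤℓ S) (Ec F₀ e) (algebraMap ℤℓ (Algebra.adjoin ℤℓ S) a)) :=
      isIntegral_algebraMap
    rw [← IsScalarTower.algebraMap_apply] at this
    exact this

variable {F₀ e ℓ S}

theorem mem_BE_iff {z : Ec F₀ e} :
    z ∈ BE F₀ e ℓ S ↔ IsIntegral (Algebra.adjoin ℤℓ S) z := Iff.rfl

/-- Elements of the chart algebra are integral in the Kummer algebra. -/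
theorem algebraMap_mem_BE {x : F} (hx : x ∈ chartAlg F₀ ℓ S) :
    algebraMap F (Ec F₀ e) x ∈ BE F₀ e ℓ S := by
  rw [mem_BE_iff]
  exact ((mem_chartAlg_iff F₀ ℓ).mp hx).algebraMap

/-- The Kummer generator `y` is integral as soon as `w ∈ ℤℓ[S]`. -/
theorem kumY_mem_BE (hw : wF F₀ ∈ Algebra.adjoin ℤℓ S) :
    kumY F (wF F₀) e ∈ BE F₀ e ℓ S := by
  rw [mem_BE_iff]
  refine IsIntegral.of_pow (N_pos e) ?_
  rw [kumY_pow]
  have h1 : algebraMap F (Ec F₀ e) (wF F₀) =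
      algebraMap (Algebra.adjoin ℤℓ S) (Ec F₀ e) ⟨wF F₀, hw⟩ := by
    rw [IsScalarTower.algebraMap_apply (Algebra.adjoin ℤℓ S) F (Ec F₀ e)]
    rfl
  rw [h1]
  exact isIntegral_algebraMap

/-- **The retraction lands in the chart algebra**: for `z` integral over `ℤℓ[S]`, the coordinate
`kumProj z = (1/e) · Tr z` is integral over `ℤℓ[S]`. -/
theorem kumProj_mem_chartAlg (hℓe : ¬ ℓ ∣ e) {z : Ec F₀ e} (hz : z ∈ BE F₀ e ℓ S) :
    kumProj F (wF F₀) (N_pos e) z ∈ chartAlg F₀ ℓ S := by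
  rw [mem_chartAlg_iff]
  have htr : IsIntegral (Algebra.adjoin ℤℓ S) (Algebra.trace F (Ec F₀ e) z) :=
    Fermat.Agent.Good.TraceInt.isIntegral_trace (mem_BE_iff.mp hz)
  rw [trace_eq_smul_kumProj F (wF F₀) (N_pos e)] at htr
  have h1 : kumProj F (wF F₀) (N_pos e) z =
      algebraMap (Algebra.adjoin ℤℓ S) F (algebraMap ℤℓ (Algebra.adjoin ℤℓ S) (invN hℓe)) *
        ((e : F) * kumProj F (wF F₀) (N_pos e) z) := by
    rw [← IsScalarTower.algebraMap_apply, ← mul_assoc, algebraMap_invN_mul F₀ hℓe, one_mul]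
  rw [h1]
  exact isIntegral_algebraMap.mul htr

variable (F₀ e ℓ S)

/-- The inclusion of the chart algebra into the integral closure in the Kummer algebra. -/
def incl : chartAlg F₀ ℓ S →ₐ[ℤℓ] BE F₀ e ℓ S where
  toFun x := ⟨algebraMap F (Ec F₀ e) x, algebraMap_mem_BE x.2⟩
  map_one' := Subtype.ext (map_one _)
  map_mul' x y := Subtype.ext (map_mul _ _ _)
  map_zero' := Subtype.ext (map_zero _)
  map_add' x y := Subtype.ext (map_add _ _ _)
  commutes' a := Subtype.ext (by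
    show algebraMap F (Ec F₀ e) (algebraMap ℤℓ F a) = algebraMap ℤℓ (Ec F₀ e) a
    rw [← IsScalarTower.algebraMap_apply])

@[simp] theorem coe_incl (x : chartAlg F₀ ℓ S) :
    ((incl F₀ e ℓ S x : BE F₀ e ℓ S) : Ec F₀ e) = algebraMap F (Ec F₀ e) (x : F) := rfl

/-- `BE F₀ e ℓ S` as an algebra over the chart algebra. -/
instance algebraBE : Algebra (chartAlg F₀ ℓ S) (BE F₀ e ℓ S) :=
  (incl F₀ e ℓ S).toRingHom.toAlgebra

theorem algebraMap_BE_def (x : chartAlg F₀ ℓ S) :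
    algebraMap (chartAlg F₀ ℓ S) (BE F₀ e ℓ S) x = incl F₀ e ℓ S x := rfl

instance isScalarTower_BE : IsScalarTower ℤℓ (chartAlg F₀ ℓ S) (BE F₀ e ℓ S) :=
  IsScalarTower.of_algebraMap_eq fun a => ((incl F₀ e ℓ S).commutes a).symm

variable {e ℓ} in
/-- **The retraction** `BE → chartAlg`, `z ↦ kumProj z = (1/e)·Tr z`, linear over the chart
algebra. -/
def rho (hℓe : ¬ ℓ ∣ e) : BE F₀ e ℓ S →ₗ[chartAlg F₀ ℓ S] chartAlg F₀ ℓ S where
  toFun z := ⟨kumProj F (wF F₀) (N_pos e) (z : Ec F₀ e), kumProj_mem_chartAlg hℓe z.2⟩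
  map_add' z z' := Subtype.ext (by
    show kumProj F (wF F₀) (N_pos e) ((z : Ec F₀ e) + (z' : Ec F₀ e)) = _
    rw [map_add]; rfl)
  map_smul' a z := Subtype.ext (by
    show kumProj F (wF F₀) (N_pos e) (((a • z : BE F₀ e ℓ S) : Ec F₀ e)) =
      (a : F) * kumProj F (wF F₀) (N_pos e) (z : Ec F₀ e)
    have h1 : ((a • z : BE F₀ e ℓ S) : Ec F₀ e) = (a : F) • (z : Ec F₀ e) := by
      rw [Algebra.smul_def, algebraMap_BE_def, Subalgebra.coe_mul, coe_incl, ← Algebra.smul_def]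
    rw [h1, map_smul, smul_eq_mul])

variable {e ℓ} in
@[simp] theorem coe_rho (hℓe : ¬ ℓ ∣ e) (z : BE F₀ e ℓ S) :
    ((rho F₀ S hℓe z : chartAlg F₀ ℓ S) : F) = kumProj F (wF F₀) (N_pos e) (z : Ec F₀ e) := rfl

variable {e ℓ} in
/-- `rho` is a retraction of the inclusion. -/
theorem rho_incl (hℓe : ¬ ℓ ∣ e) (x : chartAlg F₀ ℓ S) :
    rho F₀ S hℓe (incl F₀ e ℓ S x) = x :=
  Subtype.ext (by rw [coe_rho, coe_incl, kumProj_algebraMap])

variable {e ℓ} in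
theorem rho_algebraMap (hℓe : ¬ ℓ ∣ e) (x : chartAlg F₀ ℓ S) :
    rho F₀ S hℓe (algebraMap (chartAlg F₀ ℓ S) (BE F₀ e ℓ S) x) = x :=
  rho_incl F₀ S hℓe x

theorem incl_injective : Function.Injective (incl F₀ e ℓ S) := by
  intro x x' h
  have h1 := congrArg (fun z : BE F₀ e ℓ S => kumProj F (wF F₀) (N_pos e) (z : Ec F₀ e)) h
  simp only [coe_incl, kumProj_algebraMap] at h1
  exact Subtype.ext h1

end Fermat.Agent.DS.Good.CuspChart
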