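import Mathlib
import Fermat.Agent.DS.Good.CuspBaseRing

/-!
# PROGRAMME III (S48), port leaf X1-GOOD G-2 (helper7): the cusp chart over `Kum.LamC ℤ_(ℓ)`,
GENERIC in the field `F₀ ⊂ ℚ((q))` (twin of `Good/CuspLamModel.lean` over helper27's
`Fermat.Agent.DS.Chart` layer)

`LamC ℤ_(ℓ) = ℤ_(ℓ)[X][1/(1 - 1728 X)]` (helper4's `Good/KummerCover.lean`) is mapped to the
modular function field `F = F_N` by `X ↦ w = 1/j`.

* (M1) `lamToF : LamC ℤ_(ℓ) →+* F`, `lamToF_algebraMap`, `lamToF_wLam`, `lamToF_injective`,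
  `range_lamToF` (the range is `ℤ_(ℓ)[w, 1/(1 - 1728 w)]`);
* (M2) `lamAlgebraFull : Algebra (LamC ℤ_(ℓ)) F` (a `def`, to be activated with
  `attribute [local instance]`), `isScalarTower_zl_lam_full`;
* (M3) `lamAlgebraInfC : Algebra (LamC ℤ_(ℓ)) (chartAlgInfC F₀ ℓ)` (also a `def`), the scalar towers,
  `isIntegral_lam_infC`, `finite_lam_infC`, `mem_chartAlgInfC_iff_isIntegral_lam`, and
  `isIntegral_adjInfC_iff_isIntegral_lam` (integrality over `ℤ_(ℓ)[w, 1/g]` and over `LamC ℤ_(ℓ)`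
  agree in any `F`-algebra).
-/

set_option autoImplicit false
set_option linter.style.haveILetI false
set_option linter.unusedSectionVars false

open ModularCurve TensorProduct Fermat.Agent.DS.Chart IntermediateField Polynomial
open Fermat.Agent.Igusa Fermat.Agent.Good.Kum

namespace Fermat.Agent.DS.Good.CuspGlue

variable (F₀ : IntermediateField ℚ (LaurentSeries ℚ)) [hjF : Fact (jq ∈ F₀)]
variable (ℓ : ℕ) [Fact ℓ.Prime]

set_option quotPrecheck false in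
local notation "ℤℓ" => ↥(GaloisRep.ratLocalizedAt ℓ)

set_option quotPrecheck false in
local notation "F" => ↥F₀

set_option synthInstance.maxHeartbeats 400000

/-! ### (M1) -/

/-- `LamC ℤ_(ℓ) → F`, `X ↦ 1/j`, as a `ℤ_(ℓ)`-algebra map. -/
noncomputable def lamToFAlg : LamC ℤℓ →ₐ[ℤℓ] F :=
  (adjInfC F₀ ℓ).val.comp (lamEquivAdjInfC F₀ ℓ).toAlgHom

/-- `LamC ℤ_(ℓ) → F`, `X ↦ 1/j`. -/
noncomputable def lamToF : LamC ℤℓ →+* F := (lamToFAlg F₀ ℓ).toRingHom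

theorem lamToF_apply (a : LamC ℤℓ) :
    lamToF F₀ ℓ a = ((lamEquivAdjInfC F₀ ℓ a : ↥(adjInfC F₀ ℓ)) : F) := rfl

theorem lamToF_algebraMap (p : ℤℓ[X]) :
    lamToF F₀ ℓ (algebraMap ℤℓ[X] (LamC ℤℓ) p) = Polynomial.aeval (jG F₀)⁻¹ p :=
  coe_lamEquivAdjInfC_algebraMap F₀ ℓ p

theorem lamToF_wLam : lamToF F₀ ℓ (wLam ℤℓ) = (jG F₀)⁻¹ :=
  coe_lamEquivAdjInfC_wLam F₀ ℓ

theorem lamToF_lamConst (a : ℤℓ) : lamToF F₀ ℓ (lamConst ℤℓ a) = algebraMap ℤℓ F a :=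
  coe_lamEquivAdjInfC_lamConst F₀ ℓ a

theorem lamToF_algebraMap_zl (a : ℤℓ) :
    lamToF F₀ ℓ (algebraMap ℤℓ (LamC ℤℓ) a) = algebraMap ℤℓ F a :=
  (lamToFAlg F₀ ℓ).commutes a

theorem lamToF_cLam : lamToF F₀ ℓ (algebraMap ℤℓ[X] (LamC ℤℓ) (cLam ℤℓ)) = gFull F₀ := by
  rw [lamToF_algebraMap, cLam, map_sub, map_one, map_mul, aeval_X, aeval_C]
  have : algebraMap ℤℓ F 1728 = 1728 := map_ofNat (algebraMap ℤℓ F) 1728
  rw [this]
  rfl

theorem lamToF_injective : Function.Injective (lamToF F₀ ℓ) := fun _ _ h =>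
  (lamEquivAdjInfC F₀ ℓ).injective (Subtype.ext h)

theorem lamToF_mem (a : LamC ℤℓ) : lamToF F₀ ℓ a ∈ adjInfC F₀ ℓ :=
  (lamEquivAdjInfC F₀ ℓ a).2

theorem range_lamToF :
    Set.range (lamToF F₀ ℓ) =
      ((Algebra.adjoin ℤℓ ({(jG F₀)⁻¹, (gFull F₀)⁻¹} : Set F) : Subalgebra ℤℓ F) : Set F) := by
  ext x
  constructor
  · rintro ⟨a, rfl⟩
    exact lamToF_mem F₀ ℓ a
  · intro hx
    refine ⟨(lamEquivAdjInfC F₀ ℓ).symm ⟨x, hx⟩, ?_⟩
    rw [lamToF_apply, AlgEquiv.apply_symm_apply]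

/-! ### (M2) -/

/-- `F` as a `LamC ℤ_(ℓ)`-algebra (`X ↦ 1/j`).  Not a global instance: activate it with
`attribute [local instance] Fermat.Agent.DS.Good.CuspGlue.lamAlgebraFull`. -/
@[instance_reducible]
noncomputable def lamAlgebraFull : Algebra (LamC ℤℓ) F := (lamToF F₀ ℓ).toAlgebra

attribute [local instance] lamAlgebraFull

theorem algebraMap_lam_full (a : LamC ℤℓ) : algebraMap (LamC ℤℓ) F a = lamToF F₀ ℓ a := rfl

theorem isScalarTower_zl_lam_full : IsScalarTower ℤℓ (LamC ℤℓ) F :=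
  IsScalarTower.of_algebraMap_eq fun a => (lamToF_algebraMap_zl F₀ ℓ a).symm

theorem faithfulSMul_lam_full : FaithfulSMul (LamC ℤℓ) F :=
  (faithfulSMul_iff_algebraMap_injective _ _).mpr (lamToF_injective F₀ ℓ)

/-! ### (M3) -/

/-- `LamC ℤ_(ℓ) → chartAlgInfC`. -/
noncomputable def lamToInfC : LamC ℤℓ →ₐ[ℤℓ] ↥(chartAlgInfC F₀ ℓ) :=
  (Subalgebra.inclusion (show adjInfC F₀ ℓ ≤ chartAlgInfC F₀ ℓ from
    Algebra.adjoin_le (subset_chartAlg F₀ ℓ _))).comp (lamEquivAdjInfC F₀ ℓ).toAlgHom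

theorem coe_lamToInfC (a : LamC ℤℓ) :
    ((lamToInfC F₀ ℓ a : ↥(chartAlgInfC F₀ ℓ)) : F) = lamToF F₀ ℓ a := rfl

/-- The cusp chart algebra as a `LamC ℤ_(ℓ)`-algebra.  Not a global instance. -/
@[instance_reducible]
noncomputable def lamAlgebraInfC : Algebra (LamC ℤℓ) ↥(chartAlgInfC F₀ ℓ) :=
  (lamToInfC F₀ ℓ).toRingHom.toAlgebra

attribute [local instance] lamAlgebraInfC

theorem algebraMap_lam_infC (a : LamC ℤℓ) :
    algebraMap (LamC ℤℓ) ↥(chartAlgInfC F₀ ℓ) a = lamToInfC F₀ ℓ a := rfl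

theorem isScalarTower_lam_infC_full : IsScalarTower (LamC ℤℓ) ↥(chartAlgInfC F₀ ℓ) F :=
  IsScalarTower.of_algebraMap_eq fun _ => rfl

theorem isScalarTower_zl_lam_infC : IsScalarTower ℤℓ (LamC ℤℓ) ↥(chartAlgInfC F₀ ℓ) :=
  IsScalarTower.of_algebraMap_eq fun a => ((lamToInfC F₀ ℓ).commutes a).symm

/-- Integrality over `ℤ_(ℓ)[w, 1/g]` and over `LamC ℤ_(ℓ)` agree, in any `F`-algebra. -/
theorem isIntegral_adjInfC_iff_isIntegral_lam {E' : Type*} [CommRing E'] [Algebra F E']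
    [Algebra (LamC ℤℓ) E'] [IsScalarTower (LamC ℤℓ) F E'] (z : E') :
    IsIntegral ↥(Algebra.adjoin ℤℓ ({(jG F₀)⁻¹, (gFull F₀)⁻¹} : Set F)) z ↔
      IsIntegral (LamC ℤℓ) z := by
  constructor
  · intro h
    have := h.map_of_comp_eq (lamEquivAdjInfC F₀ ℓ).symm.toRingEquiv.toRingHom (RingHom.id E') (by
      ext x
      show algebraMap (LamC ℤℓ) E' ((lamEquivAdjInfC F₀ ℓ).symm x) =
        algebraMap F E' (x : F)
      rw [IsScalarTower.algebraMap_apply (LamC ℤℓ) F E', algebraMap_lam_full, lamToF_apply,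
        AlgEquiv.apply_symm_apply])
    simpa using this
  · intro h
    have := h.map_of_comp_eq (lamEquivAdjInfC F₀ ℓ).toRingEquiv.toRingHom (RingHom.id E') (by
      ext x
      show algebraMap F E' ((lamEquivAdjInfC F₀ ℓ x : ↥(adjInfC F₀ ℓ)) : F) =
        algebraMap (LamC ℤℓ) E' x
      rw [IsScalarTower.algebraMap_apply (LamC ℤℓ) F E', algebraMap_lam_full, lamToF_apply])
    simpa using this

/-- The cusp chart algebra is the integral closure of `LamC ℤ_(ℓ)` in `F`. -/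
theorem mem_chartAlgInfC_iff_isIntegral_lam (x : F) :
    x ∈ chartAlgInfC F₀ ℓ ↔ IsIntegral (LamC ℤℓ) x := by
  rw [mem_chartAlg_iff]
  exact isIntegral_adjInfC_iff_isIntegral_lam F₀ ℓ x

theorem isIntegral_lam_infC : Algebra.IsIntegral (LamC ℤℓ) ↥(chartAlgInfC F₀ ℓ) := by
  haveI := isScalarTower_lam_infC_full F₀ ℓ
  refine ⟨fun x => ?_⟩
  have hx : IsIntegral (LamC ℤℓ) ((x : ↥(chartAlgInfC F₀ ℓ)) : F) :=
    (mem_chartAlgInfC_iff_isIntegral_lam F₀ ℓ _).mp x.2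
  exact (isIntegral_algHom_iff (IsScalarTower.toAlgHom (LamC ℤℓ) ↥(chartAlgInfC F₀ ℓ) F)
    Subtype.val_injective).mp hx

attribute [local instance] chartBaseAlgebra
attribute [local instance 2000] chartBaseSMul

/-- The cusp chart algebra is a finite `LamC ℤ_(ℓ)`-module. -/
theorem finite_lam_infC {d : ℕ} (hdeg : DegInputs F₀ d) : Module.Finite (LamC ℤℓ) ↥(chartAlgInfC F₀ ℓ) := by
  haveI := finite_chartAlgInfC F₀ ℓ hdeg
  obtain ⟨s, hs⟩ := (finite_chartAlgInfC F₀ ℓ hdeg).fg_top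
  refine ⟨⟨s, ?_⟩⟩
  rw [eq_top_iff]
  intro x _
  have hx : x ∈ Submodule.span ↥(adjInfC F₀ ℓ) (s : Set ↥(chartAlgInfC F₀ ℓ)) := by
    rw [hs]; trivial
  refine Submodule.span_induction (p := fun y _ =>
    y ∈ Submodule.span (LamC ℤℓ) (s : Set ↥(chartAlgInfC F₀ ℓ))) ?_ ?_ ?_ ?_ hx
  · intro y hy
    exact Submodule.subset_span hy
  · exact zero_mem _
  · intro y z _ _ hy hz
    exact add_mem hy hz
  · intro a y _ hy
    have : a • y = ((lamEquivAdjInfC F₀ ℓ).symm a) • y := by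
      apply Subtype.ext
      show (a : F) * (y : F) = lamToF F₀ ℓ ((lamEquivAdjInfC F₀ ℓ).symm a) * (y : F)
      rw [lamToF_apply, AlgEquiv.apply_symm_apply]
    rw [this]
    exact Submodule.smul_mem _ _ hy

end Fermat.Agent.DS.Good.CuspGlue
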