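import Mathlib
import Fermat.Agent.Good.CuspDisc
import Fermat.Agent.DS.Good.CuspLamModel
import Fermat.Agent.DS.Chart.Disc

/-!
# PROGRAMME III (S48), port leaf X1-GOOD G-2 (helper21): (H1c), the discriminant hypothesis on the
cusp chart, GENERIC in the field `F₀ ⊂ ℚ((q))` (twin of `Good/CuspDisc.lean` over helper27's
`Fermat.Agent.DS.Chart` layer and helper7's `DS/Good/CuspLamModel`)

* `CuspDiscCore F₀ ℓ hfr d` : a `ℚ(j)`-basis of `F₀` (indexed by `Fin d`) inside the cusp chart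
  algebra whose discriminant has nonzero reduction mod `ℓ`;
* `h1c_of_core` : **(H1c)** from the core, over an arbitrary fraction field `K0` of `LamC ℤ_(ℓ)`;
* `FinDiscCore F₀ ℓ hfr d` : the same for the finite chart;
  `cuspDiscCore_of_finDiscCore` : the core on the cusp chart from the core on the finite chart, by
  scaling the basis with powers of `w = 1/j`;
* `cuspDiscCore F₀ ℓ I`, `h1c F₀ ℓ I K0`, `h1c_rCov F₀ ℓ e I K0` : unconditionally from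
  `I : Chart.ChartInputs F₀ ℓ d` (via `Chart.S28X.exists_basis_discr_adjInf`).

The statements not mentioning the field (`not_dvd_algebraMap_rCov`, `discr_unitsSMul_eq`,
`gaussRes_mul_of_coe`) are used from main's `Good/CuspDisc.lean`.
-/

set_option autoImplicit false
set_option linter.style.haveILetI false
set_option linter.unusedSectionVars false

open ModularCurve TensorProduct Fermat.Agent.DS.Chart IntermediateField Polynomial Module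
open Fermat.Agent.Igusa Fermat.Agent.Good.Kum Fermat.Agent.Good.CuspCover

namespace Fermat.Agent.DS.Good.CuspGlue

variable (F₀ : IntermediateField ℚ (LaurentSeries ℚ)) [hjF : Fact (jq ∈ F₀)]
variable (ℓ : ℕ) [Fact ℓ.Prime]

set_option quotPrecheck false in
local notation "ℤℓ" => ↥(GaloisRep.ratLocalizedAt ℓ)

set_option quotPrecheck false in
local notation "F" => ↥F₀

set_option synthInstance.maxHeartbeats 400000

/-! ### (H1c) from the core -/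

attribute [local instance] lamAlgebraFull

variable (hfr : IsZlField F₀ ℓ) (d : ℕ)

/-- **Core of (H1c)**: a `ℚ(j)`-basis of `F₀` inside the cusp chart algebra whose discriminant
(an element of the chart) has nonzero reduction mod `ℓ`. -/
def CuspDiscCore : Prop :=
  ∃ (b : Basis (Fin d) ↥ℚ⟮jG F₀⟯ F) (a : ↥(chartAlgInfC F₀ ℓ)),
    (∀ i, b i ∈ chartAlgInfC F₀ ℓ) ∧ ((a : F) ∈ adjInfC F₀ ℓ) ∧
    ((Algebra.discr ↥ℚ⟮jG F₀⟯ b : ↥ℚ⟮jG F₀⟯) : F) = (a : F) ∧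
    chartRes F₀ ℓ hfr (hSInfC F₀ ℓ hfr) a ≠ 0

/-- `ℚ(j)` as a `LamC ℤ_(ℓ)`-algebra (`X ↦ 1/j`). -/
@[instance_reducible]
noncomputable def lamAlgebraQj : Algebra (LamC ℤℓ) ↥ℚ⟮jG F₀⟯ :=
  ((adjoinToQj F₀ ℓ (sInfC_subset_Qj F₀)).comp
    (lamEquivAdjInfC F₀ ℓ).toRingEquiv.toRingHom).toAlgebra

attribute [local instance] lamAlgebraQj

theorem coe_algebraMap_lam_qj (a : LamC ℤℓ) :
    ((algebraMap (LamC ℤℓ) ↥ℚ⟮jG F₀⟯ a : ↥ℚ⟮jG F₀⟯) : F) = lamToF F₀ ℓ a := rfl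

theorem isScalarTower_lam_qj_full : IsScalarTower (LamC ℤℓ) ↥ℚ⟮jG F₀⟯ F :=
  IsScalarTower.of_algebraMap_eq fun _ => rfl

theorem isFractionRing_lam_qj : IsFractionRing (LamC ℤℓ) ↥ℚ⟮jG F₀⟯ := by
  letI := adjoinAlgebraQj F₀ ℓ (sInfC_subset_Qj F₀)
  haveI := isFractionRing_adjInfC F₀ ℓ
  have h := IsLocalization.isLocalization_of_base_ringEquiv (nonZeroDivisors ↥(adjInfC F₀ ℓ))
    ↥ℚ⟮jG F₀⟯ (lamEquivAdjInfC F₀ ℓ).symm.toRingEquiv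
  have hM : Submonoid.map (lamEquivAdjInfC F₀ ℓ).symm.toRingEquiv
      (nonZeroDivisors ↥(adjInfC F₀ ℓ)) = nonZeroDivisors (LamC ℤℓ) :=
    MulEquivClass.map_nonZeroDivisors _
  rw [hM] at h
  exact h

/-- **(H1c) from the core**, over an arbitrary fraction field `K0` of `LamC ℤ_(ℓ)`. -/
theorem h1c_of_core (h : CuspDiscCore F₀ ℓ hfr d) (K0 : Type*) [Field K0] [Algebra (LamC ℤℓ) K0]
    [IsFractionRing (LamC ℤℓ) K0] [Algebra K0 F] [IsScalarTower (LamC ℤℓ) K0 F] :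
    ∃ b : Basis (Fin d) K0 F, (∀ i, b i ∈ chartAlgInfC F₀ ℓ) ∧
      ∃ d' : LamC ℤℓ, Algebra.discr K0 b = algebraMap (LamC ℤℓ) K0 d' ∧
        ¬ lamConst ℤℓ (zlPrime ℓ) ∣ d' := by
  obtain ⟨b, a, hb, ha, hdisc, hres⟩ := h
  haveI := isScalarTower_lam_qj_full F₀ ℓ
  haveI := isFractionRing_lam_qj F₀ ℓ
  refine ⟨Fermat.Agent.Good.FracBridge.basisFrac (LamC ℤℓ) (K' := K0) b, fun i => ?_,
    (lamEquivAdjInfC F₀ ℓ).symm ⟨(a : F), ha⟩, ?_, ?_⟩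
  · rw [Fermat.Agent.Good.FracBridge.basisFrac_apply]
    exact hb i
  · refine Fermat.Agent.Good.FracBridge.discr_basisFrac_algebraMap (LamC ℤℓ) b ?_
    apply Subtype.ext
    rw [hdisc, coe_algebraMap_lam_qj, lamToF_apply, AlgEquiv.apply_symm_apply]
  · rintro ⟨c, hc⟩
    apply hres
    have h1 : a = lamToInfC F₀ ℓ ((lamEquivAdjInfC F₀ ℓ).symm ⟨(a : F), ha⟩) := by
      apply Subtype.ext
      rw [coe_lamToInfC, lamToF_apply, AlgEquiv.apply_symm_apply]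
    have h2 : lamToInfC F₀ ℓ (lamConst ℤℓ (zlPrime ℓ)) =
        algebraMap ℤℓ ↥(chartAlgInfC F₀ ℓ) (zlPrime ℓ) := by
      apply Subtype.ext
      rw [coe_lamToInfC, lamToF_lamConst]
      rfl
    rw [h1, hc, map_mul, h2, map_mul, Chart.chartRes_algebraMap, zlResidue_zlPrime, map_zero,
      zero_mul]

/-! ### The core on the cusp chart from the core on the finite chart -/

/-- **Core of (H1)** on the finite chart: a `ℚ(j)`-basis of `F₀` inside `chartAlgFin` whose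
discriminant (an element of the chart) has nonzero reduction mod `ℓ`. -/
def FinDiscCore : Prop :=
  ∃ (b : Basis (Fin d) ↥ℚ⟮jG F₀⟯ F) (a : ↥(chartAlgFin F₀ ℓ)),
    (∀ i, b i ∈ chartAlgFin F₀ ℓ) ∧
    ((Algebra.discr ↥ℚ⟮jG F₀⟯ b : ↥ℚ⟮jG F₀⟯) : F) = (a : F) ∧
    chartRes F₀ ℓ hfr (hSFin F₀ ℓ) a ≠ 0

/-- `w = 1/j` as an element of `ℚ(j)`. -/
noncomputable def wQj : ↥ℚ⟮jG F₀⟯ :=
  ⟨(jG F₀)⁻¹, ℚ⟮jG F₀⟯.inv_mem (jG_mem_Qj F₀)⟩

theorem coe_wQj : ((wQj F₀ : ↥ℚ⟮jG F₀⟯) : F) = (jG F₀)⁻¹ := rfl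

theorem wQj_ne_zero : wQj F₀ ≠ 0 := fun h =>
  inv_ne_zero (jG_ne_zero F₀) (congrArg Subtype.val h)

/-- Scaling exponents: `w^n b ∈ chartAlgInf` for `b ∈ chartAlgFin`. -/
theorem exists_pow_mul_mem_chartAlgInf {x : F} (hx : x ∈ chartAlgFin F₀ ℓ) :
    ∃ n : ℕ, (jG F₀)⁻¹ ^ n * x ∈ chartAlgInf F₀ ℓ := by
  have hz : x ∈ chartAlg F₀ ℓ (insert (jG F₀)⁻¹⁻¹ {(jG F₀)⁻¹}) := by
    rw [inv_inv]
    exact chartAlg_mono F₀ ℓ (sFin_subset F₀) hx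
  exact exists_pow_mul_mem_chartAlg (Set.mem_singleton _) (inv_ne_zero (jG_ne_zero F₀)) hz

/-- Nonvanishing of the reduction of `w^m a`, `a` in the finite chart with nonzero reduction. -/
theorem chartRes_pow_mul_ne_zero (m : ℕ) (a : ↥(chartAlgFin F₀ ℓ))
    (hres : chartRes F₀ ℓ hfr (hSFin F₀ ℓ) a ≠ 0)
    (hmem : (jG F₀)⁻¹ ^ m * (a : F) ∈ chartAlgInfC F₀ ℓ) :
    chartRes F₀ ℓ hfr (hSInfC F₀ ℓ hfr) ⟨_, hmem⟩ ≠ 0 := by
  rw [Chart.chartRes_apply]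
  have hw0 : (jG F₀)⁻¹ ∈ chartAlgInf F₀ ℓ := subset_chartAlg F₀ ℓ _ (Set.mem_singleton _)
  have hw : ((jG F₀)⁻¹ ^ m : F) ∈ chartAlgInf F₀ ℓ := pow_mem hw0 m
  have hwG := coe_mem_gaussSubring_of_mem_chartAlg F₀ ℓ hfr (hSInf F₀ ℓ) hw
  have haG := coe_mem_gaussSubring_of_mem_chartAlg F₀ ℓ hfr (hSFin F₀ ℓ) a.2
  have hmul := Fermat.Agent.Good.CuspGlue.gaussRes_mul_of_coe ℓ hwG haG
    (coe_mem_gaussSubring_of_mem_chartAlg F₀ ℓ hfr (hSInfC F₀ ℓ hfr) hmem) rfl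
  refine hmul ▸ mul_ne_zero ?_ ?_
  · have h1 : gaussRes ℓ ⟨_, hwG⟩ =
        chartRes F₀ ℓ hfr (hSInf F₀ ℓ) (jInvChartInf F₀ ℓ ^ m) := by
      rw [Chart.chartRes_apply]
      rfl
    rw [h1, map_pow, chartRes_jG_inv F₀ ℓ hfr (hSInf F₀ ℓ) (jInvChartInf F₀ ℓ) rfl]
    exact pow_ne_zero _ (inv_ne_zero (jqModC_ne_zero_of_nontrivial (ZMod ℓ)))
  · rw [Chart.chartRes_apply] at hres
    exact hres

variable {d} in
/-- The discriminant of a family in the cusp chart lies in `ℤ_(ℓ)[w, 1/g]`. -/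
theorem discr_mem_adjInfC (hdeg : DegInputs F₀ d) {ι : Type*} [Fintype ι] [DecidableEq ι]
    (v : ι → F) (hv : ∀ i, v i ∈ chartAlgInfC F₀ ℓ) :
    ((Algebra.discr ↥ℚ⟮jG F₀⟯ v : ↥ℚ⟮jG F₀⟯) : F) ∈ adjInfC F₀ ℓ := by
  letI := adjoinAlgebraQj F₀ ℓ (sInfC_subset_Qj F₀)
  haveI := adjoinQj_isScalarTower F₀ ℓ (sInfC_subset_Qj F₀)
  haveI := isFractionRing_adjInfC F₀ ℓ
  haveI := hdeg.finite
  haveI : IsIntegrallyClosed ↥(adjInfC F₀ ℓ) := isIntegrallyClosed_adjInfC F₀ ℓ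
  have hint : IsIntegral ↥(adjInfC F₀ ℓ) (Algebra.discr ↥ℚ⟮jG F₀⟯ v) :=
    Algebra.discr_isIntegral ↥ℚ⟮jG F₀⟯ fun i => (mem_chartAlg_iff F₀ ℓ).mp (hv i)
  obtain ⟨y, hy⟩ := IsIntegrallyClosed.isIntegral_iff.mp hint
  rw [← hy]
  exact y.2

variable {d} in
theorem cuspDiscCore_of_finDiscCore (hdeg : DegInputs F₀ d) (h : FinDiscCore F₀ ℓ hfr d) :
    CuspDiscCore F₀ ℓ hfr d := by
  classical
  obtain ⟨b, a, hb, hdisc, hres⟩ := h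
  choose n hn using fun i => exists_pow_mul_mem_chartAlgInf F₀ ℓ (hb i)
  let u : Fin d → (↥ℚ⟮jG F₀⟯)ˣ := fun i => Units.mk0 (wQj F₀) (wQj_ne_zero F₀) ^ n i
  have hb'_apply : ∀ i, ((b.unitsSMul u) i : F) = (jG F₀)⁻¹ ^ n i * (b i : F) := by
    intro i
    rw [Basis.unitsSMul_apply, Units.smul_def, Algebra.smul_def, Units.val_pow_eq_pow_val,
      Units.val_mk0, map_pow]
    rfl
  have hb'_mem : ∀ i, ((b.unitsSMul u) i : F) ∈ chartAlgInfC F₀ ℓ := by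
    intro i
    rw [hb'_apply]
    exact chartAlg_mono F₀ ℓ (sInfC_subset F₀) (hn i)
  have hprod : (∏ i, ((u i : (↥ℚ⟮jG F₀⟯)ˣ) : ↥ℚ⟮jG F₀⟯)) = wQj F₀ ^ (∑ i, n i) := by
    rw [← Finset.prod_pow_eq_pow_sum]
    refine Finset.prod_congr rfl fun i _ => ?_
    rw [Units.val_pow_eq_pow_val, Units.val_mk0]
  -- the discriminant as an element of `F`
  have hF : ((Algebra.discr ↥ℚ⟮jG F₀⟯ (b.unitsSMul u) : ↥ℚ⟮jG F₀⟯) : F) =
      (jG F₀)⁻¹ ^ (2 * ∑ i, n i) * (a : F) := by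
    rw [Fermat.Agent.Good.CuspGlue.discr_unitsSMul_eq, hprod, ← pow_mul,
      mul_comm (∑ i, n i) 2, MulMemClass.coe_mul, SubmonoidClass.coe_pow, coe_wQj, hdisc]
  have hadj : (jG F₀)⁻¹ ^ (2 * ∑ i, n i) * (a : F) ∈ adjInfC F₀ ℓ := by
    rw [← hF]
    exact discr_mem_adjInfC F₀ ℓ hdeg _ hb'_mem
  have hchart : (jG F₀)⁻¹ ^ (2 * ∑ i, n i) * (a : F) ∈ chartAlgInfC F₀ ℓ :=
    Algebra.adjoin_le (subset_chartAlg F₀ ℓ _) hadj
  exact ⟨b.unitsSMul u, ⟨_, hchart⟩, hb'_mem, hadj, hF,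
    chartRes_pow_mul_ne_zero F₀ ℓ hfr _ a hres hchart⟩

/-! ### The core, unconditionally (from helper27's `Chart/Disc`) -/

variable {d}

open Fermat.Agent.DS.Chart.S28X in
/-- **The core of (H1c) holds** (from `I : ChartInputs F₀ ℓ d`). -/
theorem cuspDiscCore (I : ChartInputs F₀ ℓ d) : CuspDiscCore F₀ ℓ I.zl d := by
  letI := adjoinAlgebraQj F₀ ℓ (singleton_jG_inv_subset_Qj F₀)
  haveI := adjoinQj_isScalarTower F₀ ℓ (singleton_jG_inv_subset_Qj F₀)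
  haveI := isFractionRing_adjoin_jG_inv F₀ ℓ
  obtain ⟨β, d0, hβ, hd0, hdvd⟩ := exists_basis_discr_adjInf F₀ ℓ I ↥ℚ⟮jG F₀⟯
  have hd0F : ((Algebra.discr ↥ℚ⟮jG F₀⟯ β : ↥ℚ⟮jG F₀⟯) : F) = (d0 : F) := by
    rw [← hd0]
    rfl
  have hadj : (d0 : F) ∈ adjInfC F₀ ℓ := Algebra.adjoin_mono (sInfC_subset F₀) d0.2
  have hchart : (d0 : F) ∈ chartAlgInfC F₀ ℓ := Algebra.adjoin_le (subset_chartAlg F₀ ℓ _) hadj
  refine ⟨β, ⟨_, hchart⟩, fun i => ?_, hadj, hd0F, ?_⟩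
  · rw [hβ i]
    exact chartAlg_mono F₀ ℓ (sInfC_subset F₀) (famInf F₀ ℓ I i).2
  · intro h0
    apply hdvd
    refine ChartBaseAux.ellAdj_dvd_of_adjRes_eq_zero_inf F₀ ℓ d0 ?_
    rw [ChartBaseAux.adjRes_apply F₀ ℓ I.zl, ← h0]
    exact chartRes_congr F₀ ℓ I.zl _ _ _ _ rfl

/-- **(H1c)**: from `I : ChartInputs F₀ ℓ d`, for any fraction field `K0` of `LamC ℤ_(ℓ)` acting
compatibly on `F₀`, there is a `K0`-basis of `F₀` inside the cusp chart algebra whose discriminant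
is the image of some `d' : LamC ℤ_(ℓ)` not divisible by `ℓ`. -/
theorem h1c (I : ChartInputs F₀ ℓ d) (K0 : Type*) [Field K0] [Algebra (LamC ℤℓ) K0]
    [IsFractionRing (LamC ℤℓ) K0] [Algebra K0 F] [IsScalarTower (LamC ℤℓ) K0 F] :
    ∃ b : Basis (Fin d) K0 F, (∀ i, b i ∈ chartAlgInfC F₀ ℓ) ∧
      ∃ d' : LamC ℤℓ, Algebra.discr K0 b = algebraMap (LamC ℤℓ) K0 d' ∧
        ¬ lamConst ℤℓ (zlPrime ℓ) ∣ d' :=
  h1c_of_core F₀ ℓ I.zl d (cuspDiscCore F₀ ℓ I) K0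

/-- (H1c) with the divisibility statement in the cover ring `RCov ℤ_(ℓ) e` (`e` = Kummer index). -/
theorem h1c_rCov (e : ℕ) [NeZero e] (I : ChartInputs F₀ ℓ d) (K0 : Type*) [Field K0]
    [Algebra (LamC ℤℓ) K0]
    [IsFractionRing (LamC ℤℓ) K0] [Algebra K0 F] [IsScalarTower (LamC ℤℓ) K0 F] :
    ∃ b : Basis (Fin d) K0 F, (∀ i, b i ∈ chartAlgInfC F₀ ℓ) ∧
      ∃ d' : LamC ℤℓ, Algebra.discr K0 b = algebraMap (LamC ℤℓ) K0 d' ∧
        ¬ (algebraMap ℤℓ (RCov ℤℓ e) (zlPrime ℓ)) ∣ algebraMap (LamC ℤℓ) (RCov ℤℓ e) d' := by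
  obtain ⟨b, hb, d', hd, hdvd⟩ := h1c F₀ ℓ I K0
  exact ⟨b, hb, d', hd, Fermat.Agent.Good.CuspGlue.not_dvd_algebraMap_rCov e ℓ hdvd⟩

end Fermat.Agent.DS.Good.CuspGlue
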