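import Mathlib
import Fermat.Agent.Good.CuspQuot
import Fermat.Agent.Good.AuxRetract
import Fermat.Agent.DS.X1.Good.H2CuspGen
import Fermat.Agent.DS.Good.CuspLamModel
import Fermat.Agent.DS.Good.CuspChart

/-!
# PROGRAMME III (S48), port leaf X1-GOOD G-2 (helper8): the cusp chart chain, instantiated —
GENERIC in the field `F₀ ⊂ ℚ((q))` and in the Kummer index `e`; CORE with (H1c) as a hypothesis
(twin of `Good/CuspQuotInstH7.lean`)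

`IsIntegrallyClosed (chartAlgInfC F₀ ℓ ⊗[ℤ_(ℓ)] k)` for `ℓ ∤ e` and `k` a field of characteristic
`ℓ`: instantiation of `CuspQuot.isIntegrallyClosed_tensor_of_cover` at `O = ℤ_(ℓ)`, `p = ℓ`,
`R = RCov ℤ_(ℓ) e`, `L = Frac R`, `E = F₀ ⊗[LamC ℤ_(ℓ)] R` (AUX model), `A = chartAlgInfC F₀ ℓ`,
`Λ₀ = LamC ℤ_(ℓ)`, with (H1c) a HYPOTHESIS here (discharged in `DS/Good/CuspQuotInstH7.lean` by
`CuspGlue.h1c_rCov`), (H2c) = `H2CuspGen.exists_basis_…` (from the ramification data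
`D : JRamData ℚ̄ (toBar F₀ j) e`), the retraction `AuxRet.rho` (`proj = covProj`, `u = 1/e`) and the
fibres of `Good/CuspCoverFibre.lean`.
-/

set_option autoImplicit false
set_option linter.style.haveILetI false
set_option linter.unusedSectionVars false
set_option synthInstance.maxHeartbeats 400000

open ModularCurve TensorProduct IntermediateField Polynomial Module
open Fermat.Agent.Igusa Fermat.Agent.Good Fermat.Agent.Good.Kum Fermat.Agent.Good.CuspCover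
open Fermat.Agent.DS.Chart Fermat.Agent.DS.Good.CuspGlue
open Fermat.Agent.X0 (Kb)
open Fermat.Agent.DS.X1.Good Fermat.Agent.DS.X1.Good.RamGenBar

namespace Fermat.Agent.DS.Good.CuspInstH7

variable (F₀ : IntermediateField ℚ (LaurentSeries ℚ)) [hjF : Fact (jq ∈ F₀)]
variable (e : ℕ) [NeZero e] (ℓ : ℕ) [Fact ℓ.Prime]

set_option quotPrecheck false in
local notation "ℤℓ" => ↥(GaloisRep.ratLocalizedAt ℓ)

set_option quotPrecheck false in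
local notation "F" => ↥F₀

attribute [local instance] Algebra.TensorProduct.rightAlgebra lamAlgebraFull lamAlgebraInfC
  isDomain_rCov_zl faithfulSMul_lam_full

/-! ### Preliminaries -/

omit hjF in
theorem isScalarTower_zl_lam_rCov : IsScalarTower ℤℓ (LamC ℤℓ) (RCov ℤℓ e) :=
  IsScalarTower.of_algebraMap_eq fun a => by
    rw [algebraMap_zl_rCov, algebraMap_zl_lamC, algebraMap_lamConst]

variable {e ℓ} in
/-- `1/e` in `LamC ℤ_(ℓ)`. -/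
noncomputable def invNLam (hℓe : ¬ ℓ ∣ e) : LamC ℤℓ :=
  algebraMap ℤℓ (LamC ℤℓ) (CuspChart.invN hℓe)

variable {e ℓ} in
theorem invN_mul (hℓe : ¬ ℓ ∣ e) : CuspChart.invN hℓe * (e : ℤℓ) = 1 := by
  apply Subtype.ext
  show (e : ℚ)⁻¹ * (((e : ℤℓ) : ℤℓ) : ℚ) = 1
  rw [show (((e : ℤℓ) : ℤℓ) : ℚ) = (e : ℚ) from map_natCast (algebraMap ℤℓ ℚ) e]
  exact inv_mul_cancel₀ (Nat.cast_ne_zero.mpr (NeZero.ne e))

variable {e ℓ} in
theorem invNLam_mul (hℓe : ¬ ℓ ∣ e) : invNLam hℓe * (e : LamC ℤℓ) = 1 := by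
  rw [invNLam, ← map_natCast (algebraMap ℤℓ (LamC ℤℓ)), ← map_mul, invN_mul hℓe, map_one]

variable {e ℓ} in
theorem invNLam_mul_trace (hℓe : ¬ ℓ ∣ e) (r : RCov ℤℓ e) :
    invNLam hℓe * Algebra.trace (LamC ℤℓ) (RCov ℤℓ e) r = covProj ℤℓ (N_pos' e) r := by
  rw [trace_eq_smul_covProj ℤℓ (N_pos' e), ← mul_assoc, invNLam_mul, one_mul]

/-- The cusp chart algebra is the integral closure of `LamC ℤ_(ℓ)` in `F₀`. -/
theorem isIntegralClosure_infC : IsIntegralClosure ↥(chartAlgInfC F₀ ℓ) (LamC ℤℓ) F where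
  algebraMap_injective := Subtype.val_injective
  isIntegral_iff := by
    intro x
    rw [← mem_chartAlgInfC_iff_isIntegral_lam]
    exact ⟨fun h => ⟨⟨x, h⟩, rfl⟩, fun ⟨y, hy⟩ => hy ▸ y.2⟩

/-- The hypothesis `hlam` of `H2CuspGen.exists_basis_isIntegral_discr_dvd_pow` for the
`LamC ℤ_(ℓ)`-algebra structure `lamAlgebraFull` (`w ↦ 1/j`). -/
theorem hlam_full (p : ℤℓ[X]) :
    algebraMap (LamC ℤℓ) F (algebraMap ℤℓ[X] (LamC ℤℓ) p) =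
      aeval (jG F₀)⁻¹ (p.map (algebraMap ℤℓ ℚ)) := by
  rw [algebraMap_lam_full, lamToF_algebraMap, Polynomial.aeval_map_algebraMap]

/-! ### The instantiation, with (H1c) as a hypothesis -/

/-- **Normality of the special fibre of the cusp chart**, from (H1c) over a fraction field `K0`
of `LamC ℤ_(ℓ)` inside `F₀` of degree `d`. -/
theorem isIntegrallyClosed_tensor_infC_of_h1c {d : ℕ} (hℓe : ¬ ℓ ∣ e) (I : ChartInputs F₀ ℓ d)
    (D : RamGen.JRamData Kb (toBar F₀ (jG F₀)) e)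
    (K0 : Type*) [Field K0] [Algebra (LamC ℤℓ) K0] [IsFractionRing (LamC ℤℓ) K0] [Algebra K0 F]
    [IsScalarTower (LamC ℤℓ) K0 F] [FiniteDimensional K0 F] (hrank : Module.finrank K0 F = d)
    (h1c : ∃ b : Basis (Fin d) K0 F, (∀ i, b i ∈ chartAlgInfC F₀ ℓ) ∧
      ∃ d0 : LamC ℤℓ, Algebra.discr K0 b = algebraMap (LamC ℤℓ) K0 d0 ∧
        ¬ (algebraMap ℤℓ (RCov ℤℓ e) (zlPrime ℓ)) ∣ algebraMap (LamC ℤℓ) (RCov ℤℓ e) d0)
    (k : Type*) [Field k] [CharP k ℓ] [Algebra (GaloisRep.ratLocalizedAt ℓ) k] :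
    IsIntegrallyClosed (↥(chartAlgInfC F₀ ℓ) ⊗[ℤℓ] k) := by
  classical
  -- the rings
  haveI : IsIntegrallyClosed (RCov ℤℓ e) := isIntegrallyClosed_rCov_zl e ℓ
  haveI : IsNoetherianRing (RCov ℤℓ e) := isNoetherianRing_rCov_zl e ℓ
  haveI tZLR : IsScalarTower ℤℓ (LamC ℤℓ) (RCov ℤℓ e) := isScalarTower_zl_lam_rCov e ℓ
  haveI tZLF : IsScalarTower ℤℓ (LamC ℤℓ) F := isScalarTower_zl_lam_full F₀ ℓ
  haveI tZLA : IsScalarTower ℤℓ (LamC ℤℓ) ↥(chartAlgInfC F₀ ℓ) := isScalarTower_zl_lam_infC F₀ ℓ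
  haveI tLAF : IsScalarTower (LamC ℤℓ) ↥(chartAlgInfC F₀ ℓ) F := isScalarTower_lam_infC_full F₀ ℓ
  haveI icA : IsIntegralClosure ↥(chartAlgInfC F₀ ℓ) (LamC ℤℓ) F := isIntegralClosure_infC F₀ ℓ
  haveI intA : Algebra.IsIntegral (LamC ℤℓ) ↥(chartAlgInfC F₀ ℓ) := isIntegral_lam_infC F₀ ℓ
  -- the auxiliary algebra
  letI aLE : Algebra (FractionRing (RCov ℤℓ e)) (F ⊗[LamC ℤℓ] RCov ℤℓ e) :=
    Aux.algebraFrac (LamC ℤℓ) (RCov ℤℓ e) F (FractionRing (RCov ℤℓ e))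
  haveI tRLE : IsScalarTower (RCov ℤℓ e) (FractionRing (RCov ℤℓ e)) (F ⊗[LamC ℤℓ] RCov ℤℓ e) :=
    Aux.isScalarTower_frac (LamC ℤℓ) (RCov ℤℓ e) F (FractionRing (RCov ℤℓ e))
  haveI tORE : IsScalarTower ℤℓ (RCov ℤℓ e) (F ⊗[LamC ℤℓ] RCov ℤℓ e) := by
    refine IsScalarTower.of_algebraMap_eq fun a => ?_
    rw [Algebra.TensorProduct.algebraMap_apply, Aux.algebraMap_right_apply,
      IsScalarTower.algebraMap_apply ℤℓ (LamC ℤℓ) F, Aux.algebraMap_tmul_one,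
      ← IsScalarTower.algebraMap_apply ℤℓ (LamC ℤℓ) (RCov ℤℓ e)]
  -- the fibres of the cover ring
  have hpk : algebraMap ℤℓ k (zlPrime ℓ) = 0 := InstOdd.algebraMap_zlPrime ℓ k
  have hπ : Prime (algebraMap ℤℓ (RCov ℤℓ e) (zlPrime ℓ)) := prime_covPi e ℓ
  haveI : IsDomain (RCov ℤℓ e ⧸ Ideal.span {algebraMap ℤℓ (RCov ℤℓ e) (zlPrime ℓ)}) :=
    isDomain_rCov_quotient e ℓ
  haveI : IsPrincipalIdealRing
      (RCov ℤℓ e ⧸ Ideal.span {algebraMap ℤℓ (RCov ℤℓ e) (zlPrime ℓ)}) :=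
    isPrincipalIdealRing_rCov_quotient_zl e ℓ
  haveI : IsDomain (RCov ℤℓ e ⊗[ℤℓ] k) := isDomain_rCov_tensor e ℓ k
  haveI : IsPrincipalIdealRing (RCov ℤℓ e ⊗[ℤℓ] k) := isPrincipalIdealRing_rCov_tensor e ℓ k
  have hnf : ¬ IsField (RCov ℤℓ e ⊗[ℤℓ] k) := not_isField_rCov_tensor e ℓ k
  -- (H1c)
  obtain ⟨b, hb, d0, hd, hdvd⟩ := h1c
  have hc : ∀ i, IsIntegral (RCov ℤℓ e)
      (Aux.auxBasis (LamC ℤℓ) (RCov ℤℓ e) F (FractionRing (RCov ℤℓ e)) b i) := by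
    intro i
    rw [Aux.auxBasis_apply, Aux.isIntegral_tmul_one_iff]
    exact (mem_chartAlgInfC_iff_isIntegral_lam F₀ ℓ _).mp (hb i)
  have hdc : algebraMap (RCov ℤℓ e) (FractionRing (RCov ℤℓ e))
      (algebraMap (LamC ℤℓ) (RCov ℤℓ e) d0) =
      Algebra.discr (FractionRing (RCov ℤℓ e))
        (Aux.auxBasis (LamC ℤℓ) (RCov ℤℓ e) F (FractionRing (RCov ℤℓ e)) b) :=
    (Aux.discr_auxBasis (LamC ℤℓ) (RCov ℤℓ e) F (FractionRing (RCov ℤℓ e)) b d0 hd).symm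
  -- (H2c)
  have hι : Fintype.card (Fin d) = Module.finrank K0 F := by
    rw [Fintype.card_fin, hrank]
  obtain ⟨c', hc', dc', hdc', m, hm⟩ :=
    H2CuspGen.exists_basis_isIntegral_discr_dvd_pow F₀ (jG F₀) e ℓ D (hlam_full F₀ ℓ) K0
      (FractionRing (RCov ℤℓ e)) hι
  -- the chart algebra and the retraction
  haveI : IsDomain (↥(chartAlgInfC F₀ ℓ) ⊗[ℤℓ] k) := isDomain_tensor_infC F₀ ℓ I k
  letI aAB : Algebra ↥(chartAlgInfC F₀ ℓ) (integralClosure (RCov ℤℓ e) (F ⊗[LamC ℤℓ] RCov ℤℓ e)) :=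
    AuxRet.inclAlgebra (LamC ℤℓ) (RCov ℤℓ e) F ↥(chartAlgInfC F₀ ℓ)
  haveI tOAB : IsScalarTower ℤℓ ↥(chartAlgInfC F₀ ℓ)
      (integralClosure (RCov ℤℓ e) (F ⊗[LamC ℤℓ] RCov ℤℓ e)) := by
    refine IsScalarTower.of_algebraMap_eq fun a => Subtype.ext ?_
    show algebraMap ℤℓ (F ⊗[LamC ℤℓ] RCov ℤℓ e) a =
      (algebraMap ℤℓ F a) ⊗ₜ[LamC ℤℓ] (1 : RCov ℤℓ e)
    rw [Algebra.TensorProduct.algebraMap_apply]
  exact CuspQuot.isIntegrallyClosed_tensor_of_cover (zlPrime ℓ) (Λ₀ := LamC ℤℓ) hpk hπ hnf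
    (Aux.auxBasis (LamC ℤℓ) (RCov ℤℓ e) F (FractionRing (RCov ℤℓ e)) b) hc
    (algebraMap (LamC ℤℓ) (RCov ℤℓ e) d0) hdc hdvd c' hc' dc' hdc' m hm
    (AuxRet.rho ↥(chartAlgInfC F₀ ℓ) (covProj ℤℓ (N_pos' e)) (invNLam hℓe)
      (invNLam_mul_trace hℓe))
    (AuxRet.rho_algebraMap ↥(chartAlgInfC F₀ ℓ) (covProj ℤℓ (N_pos' e))
      (covProj_algebraMap ℤℓ (N_pos' e)) (invNLam hℓe) (invNLam_mul_trace hℓe))
    (AuxRet.inclHom_algebraMap (LamC ℤℓ) (RCov ℤℓ e) F ↥(chartAlgInfC F₀ ℓ))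

end Fermat.Agent.DS.Good.CuspInstH7
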