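import Mathlib
import Fermat.Agent.DS.Good.CuspQuotInstH7Core
import Fermat.Agent.DS.Good.CuspDisc

/-!
# PROGRAMME III (S48), port leaf X1-GOOD G-2 (helper8): the cusp chart chain, instantiated —
GENERIC in the field `F₀ ⊂ ℚ((q))` and in the Kummer index `e` (twin of
`Good/CuspQuotInstH7.lean`)

`isIntegrallyClosed_tensor_infC` : for a field of modular functions `F₀ ∋ j`, a prime `ℓ`, chart
inputs `I : ChartInputs F₀ ℓ d`, ramification data `D : JRamData ℚ̄ (toBar F₀ j) e` (all cusp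
widths divide `e`) and `ℓ ∤ e`, the special fibre `chartAlgInfC F₀ ℓ ⊗[ℤ_(ℓ)] k` of the cusp chart
is integrally closed, for every field `k` of characteristic `ℓ`.

= `CuspInstH7.isIntegrallyClosed_tensor_infC_of_h1c` (the instantiation of
`CuspQuot.isIntegrallyClosed_tensor_of_cover`, `DS/Good/CuspQuotInstH7Core.lean`) at
`K0 = ℚ(j) ⊆ F₀` with (H1c) = `CuspGlue.h1c_rCov` (helper21's `DS/Good/CuspDisc.lean`) and
`[F₀ : ℚ(j)] = d` (`S28X.finrank_eq`, helper27's chart layer).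

For `X₀(N)`: `F₀ = modularFunctionFieldFull N`, `e = N`; for `X₁(M)`: `F₀ = K1 M`, `e = M`.
-/

set_option autoImplicit false
set_option linter.style.haveILetI false
set_option linter.unusedSectionVars false
set_option synthInstance.maxHeartbeats 400000

open ModularCurve TensorProduct IntermediateField Polynomial Module
open Fermat.Agent.Igusa Fermat.Agent.Good Fermat.Agent.Good.Kum Fermat.Agent.Good.CuspCover
open Fermat.Agent.DS.Chart Fermat.Agent.DS.Good.CuspGlue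
open Fermat.Agent.X0 (Kb)
open Fermat.Agent.DS.X1.Good Fermat.Agent.DS.X1.Good.RamGenBar

namespace Fermat.Agent.DS.Good.CuspInstH7

variable (F₀ : IntermediateField ℚ (LaurentSeries ℚ)) [hjF : Fact (jq ∈ F₀)]
variable (e : ℕ) [NeZero e] (ℓ : ℕ) [Fact ℓ.Prime]

set_option quotPrecheck false in
local notation "ℤℓ" => ↥(GaloisRep.ratLocalizedAt ℓ)

set_option quotPrecheck false in
local notation "F" => ↥F₀

attribute [local instance] lamAlgebraFull

/-- **Normality of the special fibre of the cusp chart** (generic twin of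
`Good.CuspInstH7.isIntegrallyClosed_tensor_infC`). -/
theorem isIntegrallyClosed_tensor_infC {d : ℕ} (hℓe : ¬ ℓ ∣ e) (I : ChartInputs F₀ ℓ d)
    (D : RamGen.JRamData Kb (toBar F₀ (jG F₀)) e)
    (k : Type*) [Field k] [CharP k ℓ] [Algebra (GaloisRep.ratLocalizedAt ℓ) k] :
    IsIntegrallyClosed (↥(chartAlgInfC F₀ ℓ) ⊗[ℤℓ] k) := by
  letI aK0 : Algebra (LamC ℤℓ) ↥ℚ⟮jG F₀⟯ := lamAlgebraQj F₀ ℓ
  haveI tK0 : IsScalarTower (LamC ℤℓ) ↥ℚ⟮jG F₀⟯ F := isScalarTower_lam_qj_full F₀ ℓ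
  haveI fK0 : IsFractionRing (LamC ℤℓ) ↥ℚ⟮jG F₀⟯ := isFractionRing_lam_qj F₀ ℓ
  haveI fdK0 : FiniteDimensional ↥ℚ⟮jG F₀⟯ F := I.deg.finite
  exact isIntegrallyClosed_tensor_infC_of_h1c F₀ e ℓ hℓe I D ↥ℚ⟮jG F₀⟯
    (S28X.finrank_eq F₀ ℓ I) (h1c_rCov F₀ ℓ e I ↥ℚ⟮jG F₀⟯) k

end Fermat.Agent.DS.Good.CuspInstH7
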