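import Fermat.Agent.Good.GenusNormalChartsConst
import Fermat.Agent.Good.GenLifts
import Fermat.Agent.Good.PoleDegree
import Fermat.Agent.Val.OrthoRedSetup
import Fermat.Agent.Val.OrthoResidueDegree
import Fermat.Agent.Val.GenusSemicont
import Fermat.Agent.FF.RiemannPkg

/-!
# PROGRAMME III, X1-GOOD, leaf G-3: the generic genus leaf

The twin of `Good/GenInstance`, `Good/GenTopCharts`, `Good/GenusEqUncond`, `Good/GenLifts` of main
for an ARBITRARY pair of fields `F ⊂ L((q))`, `Ft ⊂ k((q))` carrying orthonormal data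
`D : Val.OrthoData A π F Ft n` (instead of `F̄_N`, `F̃_N`, `Val.orthoDataQbar`).

`S := D.constRed hπ hπs` is the Gauss constant reduction, `x := D.xF`, `x̃ := D.xt`.

* `xF_mem_O`, `res_xF`, `resF_xF` : `x ∈ O` and `res x = x̃`;
* `isSepVarS_xt` : `x̃` is a separating variable of degree `n` of `Ft / k` (given separability);
* `riemannPkg_F`, `riemannPkg_Ft` : the two Riemann packages;
* `degree_poleDiv_xF`, `degree_poleDiv_xt` : both pole divisors have degree `n`;
* `genusFF_Ft_le` : `g(Ft) ≤ g(F)` unconditionally (semicontinuity);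
* `genusFF_le_of_charts` : `g(F) ≤ g(Ft)` from two normal charts;
* `genusFF_eq_of_charts` : **the genus equality `g(Ft) = g(F)`** from two normal charts;
* `liftsFin_of_span`, `liftsInf_of_span` : the lifting forms (N1), (N2).
-/

set_option autoImplicit false
set_option linter.style.haveILetI false
set_option linter.unusedSectionVars false

noncomputable section

namespace Fermat.Agent.DS.Good

open AlgebraicCurve IntermediateField Fermat.Agent.Red Fermat.Agent.FF
  Fermat.Agent.X0 Fermat.Agent.Good Fermat.Agent.Good.GenusCharts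

variable {L : Type*} [Field L] {A : ValuationSubring L} {k : Type*} [Field k] {π : A →+* k}
variable {F : IntermediateField L (LaurentSeries L)} {Ft : IntermediateField k (LaurentSeries k)}
  {n : ℕ} (D : Fermat.Agent.Val.OrthoData A π F Ft n)
  (hπ : ∀ a : A, a ∈ IsLocalRing.maximalIdeal A → π a = 0) (hπs : Function.Surjective π)

/-- `x` is integral for the Gauss valuation. -/
theorem xF_mem_O : D.xF ∈ (D.constRed hπ hπs).O :=
  (D.resSeries_aIota D.x D.hx).1

/-- The residue of `x` is `x̃`. -/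
theorem res_xF : (D.constRed hπ hπs).res ⟨D.xF, xF_mem_O D hπ hπs⟩ = D.xt := by
  apply Subtype.ext
  exact (D.resSeries_aIota D.x D.hx).2

/-- `resF x = x̃`. -/
theorem resF_xF : (D.constRed hπ hπs).resF D.xF = D.xt := by
  rw [(D.constRed hπ hπs).resF_of_mem (xF_mem_O D hπ hπs)]
  exact res_xF D hπ hπs

/-- `x̃` is transcendental over `k` (as an element of `Ft`). -/
theorem transcendental_xt : Transcendental k D.xt := by
  intro h
  apply D.transc
  have := h.algebraMap (A := LaurentSeries k)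
  exact this

include hπ hπs in
/-- `x̃` is a separating variable of degree `n` of `Ft / k`, given separability. -/
theorem isSepVarS_xt (hsept : Algebra.IsSeparable k⟮D.xt⟯ Ft) : IsSepVarS k D.xt n :=
  ⟨⟨transcendental_xt D, D.finiteDimensional_t hπ hπs, D.finrank_t_eq hπ hπs⟩, hsept⟩

/-- `x` is transcendental over `L`. -/
theorem transcendental_xF : Transcendental L D.xF :=
  transcendental_iff.mpr fun p hp => by
    by_contra hne
    exact D.aeval_xF_ne_zero hne hp

/-- `x` is a separating variable of degree `n` of `F / L`, given separability. -/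
theorem isSepVarS_xF (hsep : Algebra.IsSeparable L⟮D.xF⟯ F) : IsSepVarS L D.xF n :=
  ⟨⟨transcendental_xF D, D.finiteDimensional, D.finrank_eq⟩, hsep⟩

section AlgClosed

variable [IsAlgClosed L] [IsAlgClosed k]

/-- The Riemann package of the generic fibre. -/
theorem riemannPkg_F (hsep : Algebra.IsSeparable L⟮D.xF⟯ F) : RiemannPkg L F :=
  riemannPkg (isSepVarS_xF D hsep)

include hπ hπs in
/-- The Riemann package of the special fibre. -/
theorem riemannPkg_Ft (hsept : Algebra.IsSeparable k⟮D.xt⟯ Ft) : RiemannPkg k Ft :=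
  riemannPkg (isSepVarS_xt D hπ hπs hsept)

/-- The pole divisor of `x` on the generic fibre has degree `n`. -/
theorem degree_poleDiv_xF [HasPrincipalDivisors L F] (hsep : Algebra.IsSeparable L⟮D.xF⟯ F) :
    Divisor.degree (poleDiv L D.xF) = n :=
  degree_poleDiv_of_isSepVarS (isSepVarS_xF D hsep)

include hπ hπs in
/-- The pole divisor of `x̃` on the special fibre has degree `n`. -/
theorem degree_poleDiv_xt [HasPrincipalDivisors k Ft] (hsept : Algebra.IsSeparable k⟮D.xt⟯ Ft) :
    Divisor.degree (poleDiv k D.xt) = n :=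
  degree_poleDiv_of_isSepVarS (isSepVarS_xt D hπ hπs hsept)

/-- `x` has a pole (`0 < n` is automatic). -/
theorem exists_pole_xF (hsep : Algebra.IsSeparable L⟮D.xF⟯ F) :
    ∃ P : Place L F, P.ord D.xF < 0 := by
  haveI := (riemannPkg_F D hsep).principal
  apply exists_pole_of_degree_poleDiv_pos
  rw [degree_poleDiv_xF D hsep]
  exact_mod_cast (isSepVarS_xF D hsep).pos

include hπ hπs in
/-- `x̃` has a pole. -/
theorem exists_pole_xt (hsept : Algebra.IsSeparable k⟮D.xt⟯ Ft) :
    ∃ Q : Place k Ft, Q.ord D.xt < 0 := by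
  haveI := (riemannPkg_Ft D hπ hπs hsept).principal
  apply exists_pole_of_degree_poleDiv_pos
  rw [degree_poleDiv_xt D hπ hπs hsept]
  exact_mod_cast (isSepVarS_xt D hπ hπs hsept).pos

include hπ hπs in
/-- **`g~ ≤ g`, unconditional** (semicontinuity of the genus under the Gauss reduction). -/
theorem genusFF_Ft_le (hsep : Algebra.IsSeparable L⟮D.xF⟯ F)
    (hsept : Algebra.IsSeparable k⟮D.xt⟯ Ft) : genusFF k Ft ≤ genusFF L F :=
  (D.constRed hπ hπs).genusFF_le hπs (riemannPkg_F D hsep) (riemannPkg_Ft D hπ hπs hsept)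

/-- **`g ≤ g~`, chart form**: two sets `Bf`, `Bi` of Gauss-integral elements of `F` with poles only
at the poles (resp. zeros) of `x`, whose residues span the integral closures of `k[x̃]`
(resp. `k[x̃⁻¹]`) in `Ft` (= normality of the two charts of the special fibre). -/
theorem genusFF_le_of_charts (hsep : Algebra.IsSeparable L⟮D.xF⟯ F)
    (hsept : Algebra.IsSeparable k⟮D.xt⟯ Ft) (Bf Bi : Set F)
    (hBfO : ∀ b ∈ Bf, b ∈ (D.constRed hπ hπs).O)
    (hBiO : ∀ b ∈ Bi, b ∈ (D.constRed hπ hπs).O)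
    (hBf : ∀ b ∈ Bf, PolesAtPoles L D.xF b)
    (hBi : ∀ b ∈ Bi, PolesAtZeros L D.xF b)
    (hintf : ∀ ft : Ft, IsIntegral (Algebra.adjoin k {D.xt}) ft →
      ft ∈ Submodule.span k ((D.constRed hπ hπs).resF '' Bf))
    (hinti : ∀ ft : Ft, IsIntegral (Algebra.adjoin k {(D.xt)⁻¹}) ft →
      ft ∈ Submodule.span k ((D.constRed hπ hπs).resF '' Bi)) :
    genusFF L F ≤ genusFF k Ft := by
  have hF := riemannPkg_F D hsep
  have hFt := riemannPkg_Ft D hπ hπs hsept
  have hres := resF_xF D hπ hπs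
  refine genusFF_le_of_normal_charts_constRed (D.constRed hπ hπs) hπs hF hFt (x := D.xF) ?_
    (exists_pole_xF D hsep) ?_ Bf Bi hBfO hBiO hBf hBi ?_ ?_
  · rw [hres]
    exact fun h0 => transcendental_xt D (h0 ▸ isAlgebraic_zero)
  · haveI := hF.principal
    haveI := hFt.principal
    rw [hres, degree_poleDiv_xt D hπ hπs hsept, degree_poleDiv_xF D hsep]
  · rw [hres]; exact hintf
  · rw [hres]; exact hinti

/-- **The genus equality `g~ = g`, chart form** (place-map-free): the generic twin of main's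
`Good.genusFF_modL_eq_bar_of_charts`. -/
theorem genusFF_eq_of_charts (hsep : Algebra.IsSeparable L⟮D.xF⟯ F)
    (hsept : Algebra.IsSeparable k⟮D.xt⟯ Ft) (Bf Bi : Set F)
    (hBfO : ∀ b ∈ Bf, b ∈ (D.constRed hπ hπs).O)
    (hBiO : ∀ b ∈ Bi, b ∈ (D.constRed hπ hπs).O)
    (hBf : ∀ b ∈ Bf, PolesAtPoles L D.xF b)
    (hBi : ∀ b ∈ Bi, PolesAtZeros L D.xF b)
    (hintf : ∀ ft : Ft, IsIntegral (Algebra.adjoin k {D.xt}) ft →
      ft ∈ Submodule.span k ((D.constRed hπ hπs).resF '' Bf))
    (hinti : ∀ ft : Ft, IsIntegral (Algebra.adjoin k {(D.xt)⁻¹}) ft →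
      ft ∈ Submodule.span k ((D.constRed hπ hπs).resF '' Bi)) :
    genusFF k Ft = genusFF L F :=
  le_antisymm (genusFF_Ft_le D hπ hπs hsep hsept)
    (genusFF_le_of_charts D hπ hπs hsep hsept Bf Bi hBfO hBiO hBf hBi hintf hinti)

/-- **(N1)**, generic twin of main's `liftsFin_of_bridge`. -/
theorem liftsFin_of_span (hsep : Algebra.IsSeparable L⟮D.xF⟯ F)
    (hsept : Algebra.IsSeparable k⟮D.xt⟯ Ft) (Bf : Set F)
    (hBO : ∀ b ∈ Bf, b ∈ (D.constRed hπ hπs).O)
    (hB : ∀ b ∈ Bf, PolesAtPoles L D.xF b)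
    (hint : ∀ ft : Ft, IsIntegral (Algebra.adjoin k {D.xt}) ft →
      ft ∈ Submodule.span k ((D.constRed hπ hπs).resF '' Bf)) :
    haveI := (riemannPkg_F D hsep).principal
    haveI := (riemannPkg_Ft D hπ hπs hsept).principal
    ∀ t : Ft, (∃ s : ℕ, t ∈ riemannRochSpace (s • poleDiv k D.xt)) →
      ∃ s : ℕ, ∃ f ∈ riemannRochSpace (s • poleDiv L D.xF),
        ∃ hf : f ∈ (D.constRed hπ hπs).O, (D.constRed hπ hπs).res ⟨f, hf⟩ = t :=
  lifts_poleDiv_of_span (D.constRed hπ hπs) hπs (riemannPkg_F D hsep)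
    (riemannPkg_Ft D hπ hπs hsept) (exists_pole_xt D hπ hπs hsept) Bf hBO hB hint

/-- **(N2)**, generic twin of main's `liftsInf_of_bridge`. -/
theorem liftsInf_of_span (hsep : Algebra.IsSeparable L⟮D.xF⟯ F)
    (hsept : Algebra.IsSeparable k⟮D.xt⟯ Ft) (Bi : Set F)
    (hBO : ∀ b ∈ Bi, b ∈ (D.constRed hπ hπs).O)
    (hB : ∀ b ∈ Bi, PolesAtZeros L D.xF b)
    (hint : ∀ ft : Ft, IsIntegral (Algebra.adjoin k {(D.xt)⁻¹}) ft →
      ft ∈ Submodule.span k ((D.constRed hπ hπs).resF '' Bi)) :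
    haveI := (riemannPkg_F D hsep).principal
    haveI := (riemannPkg_Ft D hπ hπs hsept).principal
    ∀ t : Ft, (∃ s : ℕ, t ∈ riemannRochSpace (s • zeroDiv k D.xt)) →
      ∃ s : ℕ, ∃ f ∈ riemannRochSpace (s • zeroDiv L D.xF),
        ∃ hf : f ∈ (D.constRed hπ hπs).O, (D.constRed hπ hπs).res ⟨f, hf⟩ = t :=
  lifts_zeroDiv_of_span (D.constRed hπ hπs) hπs (riemannPkg_F D hsep)
    (riemannPkg_Ft D hπ hπs hsept)
    (exists_zero_of_exists_pole (riemannPkg_Ft D hπ hπs hsept) (exists_pole_xt D hπ hπs hsept))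
    Bi hBO hB hint

/-- In characteristic zero `F / L(x)` is automatically separable. -/
theorem isSeparable_xF_of_charZero [CharZero L] : Algebra.IsSeparable L⟮D.xF⟯ F := by
  haveI := D.finiteDimensional
  infer_instance

/-- **The genus equality, chart form, generic fibre of characteristic zero**: the shape consumed
by `DS/J1Spec` (`genusFF k Ft = genusFF L F` for `D : Val.OrthoData A π F Ft n`). -/
theorem genusFF_eq_of_charts_charZero [CharZero L]
    (hsept : Algebra.IsSeparable k⟮D.xt⟯ Ft) (Bf Bi : Set F)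
    (hBfO : ∀ b ∈ Bf, b ∈ (D.constRed hπ hπs).O)
    (hBiO : ∀ b ∈ Bi, b ∈ (D.constRed hπ hπs).O)
    (hBf : ∀ b ∈ Bf, PolesAtPoles L D.xF b)
    (hBi : ∀ b ∈ Bi, PolesAtZeros L D.xF b)
    (hintf : ∀ ft : Ft, IsIntegral (Algebra.adjoin k {D.xt}) ft →
      ft ∈ Submodule.span k ((D.constRed hπ hπs).resF '' Bf))
    (hinti : ∀ ft : Ft, IsIntegral (Algebra.adjoin k {(D.xt)⁻¹}) ft →
      ft ∈ Submodule.span k ((D.constRed hπ hπs).resF '' Bi)) :
    genusFF k Ft = genusFF L F :=
  genusFF_eq_of_charts D hπ hπs (isSeparable_xF_of_charZero D) hsept Bf Bi hBfO hBiO hBf hBi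
    hintf hinti

end AlgClosed

end Fermat.Agent.DS.Good
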