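import Mathlib
import Fermat.Agent.DS.Good.CuspChartModel

/-!
# PROGRAMME III (S48), port leaf X1-GOOD G-2 (helper7): normality of the special fibre of the chart
at infinity from the finite chart and the cusp chart, GENERIC in the field `F₀ ⊂ ℚ((q))`
(twin of `Good/NormalInf.lean` over helper27's `Fermat.Agent.DS.Chart` layer)

`chartAlgInf F₀ ℓ ⊗[ℤ_(ℓ)] k` is integrally closed as soon as the special fibres of the finite chart
`chartAlgFin F₀ ℓ` and of the cusp chart `chartAlgInfC F₀ ℓ = chartAlgInf[1/(1 - 1728/j)]` are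
(`CuspGlue.isIntegrallyClosed_inf_tensor_of_fin_infC`).  This file records the statement with
explicit (non-instance) hypotheses.
-/

set_option autoImplicit false
set_option linter.style.haveILetI false
set_option linter.unusedSectionVars false

open ModularCurve TensorProduct Fermat.Agent.DS.Chart
open Fermat.Agent.DS.Good.CuspGlue

namespace Fermat.Agent.DS.Good.NormalInf

variable (F₀ : IntermediateField ℚ (LaurentSeries ℚ)) [hjF : Fact (jq ∈ F₀)]
variable (ℓ : ℕ) [Fact ℓ.Prime]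

set_option quotPrecheck false in
local notation "ℤℓ" => ↥(GaloisRep.ratLocalizedAt ℓ)

set_option synthInstance.maxHeartbeats 400000

/-- **Normality of the chart at infinity from the finite chart and the cusp chart**
(explicit hypotheses). -/
theorem isIntegrallyClosed_tensor_inf_of {d : ℕ} (I : ChartInputs F₀ ℓ d)
    (k : Type*) [Field k] [CharP k ℓ] [Algebra (GaloisRep.ratLocalizedAt ℓ) k]
    (hfin : IsIntegrallyClosed (↥(chartAlgFin F₀ ℓ) ⊗[ℤℓ] k))
    (hcusp : IsIntegrallyClosed (↥(chartAlgInfC F₀ ℓ) ⊗[ℤℓ] k)) :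
    IsIntegrallyClosed (↥(chartAlgInf F₀ ℓ) ⊗[ℤℓ] k) :=
  isIntegrallyClosed_inf_tensor_of_fin_infC F₀ ℓ I k

/-- **Both charts at once** (the shape consumed by the chart bridge): from the two normality
statements `fin` and `InfC`. -/
theorem isIntegrallyClosed_tensor_fin_and_inf_of {d : ℕ} (I : ChartInputs F₀ ℓ d)
    (k : Type*) [Field k] [CharP k ℓ] [Algebra (GaloisRep.ratLocalizedAt ℓ) k]
    (hfin : IsIntegrallyClosed (↥(chartAlgFin F₀ ℓ) ⊗[ℤℓ] k))
    (hcusp : IsIntegrallyClosed (↥(chartAlgInfC F₀ ℓ) ⊗[ℤℓ] k)) :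
    IsIntegrallyClosed (↥(chartAlgFin F₀ ℓ) ⊗[ℤℓ] k) ∧
      IsIntegrallyClosed (↥(chartAlgInf F₀ ℓ) ⊗[ℤℓ] k) :=
  ⟨hfin, isIntegrallyClosed_tensor_inf_of F₀ ℓ I k hfin hcusp⟩

end Fermat.Agent.DS.Good.NormalInf
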